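import Fermat.Agent.AV.Tors.Cartier

/-!
# Extension of field valued points along valuation rings

A point with values in a field extends uniquely to every valuation ring of the field containing
the constants; we study its centre and the values of rational functions.
-/

set_option autoImplicit false

noncomputable section

universe u

open CategoryTheory CategoryTheory.Limits AlgebraicGeometry IsLocalRing TopologicalSpace
  NeronModelInfra GoodReductionJacobian Opposite

namespace FermatLib.AV.Tors

variable {K : Type u} [Field K] {g : ℕ} {F : Type u} [Field F] [Algebra K F]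

/-- A valuation ring containing the constants, as a subalgebra. -/
def valAlg (W : ValuationSubring F) (hW : ∀ c : K, algebraMap K F c ∈ W) : Subalgebra K F where
  __ := W.toSubring
  algebraMap_mem' := hW

section

variable (W : ValuationSubring F) (hW : ∀ c : K, algebraMap K F c ∈ W)

theorem mem_valAlg {z : F} : z ∈ valAlg W hW ↔ z ∈ W := Iff.rfl

instance : IsDomain (valAlg W hW) := inferInstanceAs (IsDomain W)
instance : ValuationRing (valAlg W hW) := inferInstanceAs (ValuationRing W)
instance : IsLocalRing (valAlg W hW) := inferInstanceAs (IsLocalRing W)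
instance : IsFractionRing (valAlg W hW) F := inferInstanceAs (IsFractionRing W F)

end

namespace AVData

variable (A : AVData K g) {R : Type u} [CommRing R] [Algebra K R]

/-- The point given by a homomorphism on the ring of an affine open. -/
def pointOfHom {U : A.X.Opens} (hU : IsAffineOpen U) (φ : Γ(A.X, U) →+* R)
    (hφ : ∀ c, φ (A.X.presheaf.map (homOfLE (le_top : U ≤ ⊤)).op (A.constTop c)) =
      algebraMap K R c) : A.Pt R :=
  ⟨Spec.map (CommRingCat.ofHom φ) ≫ hU.fromSpec, by
    have h := IsAffineOpen.SpecMap_appLE_fromSpec A.str (isAffineOpen_top _) hU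
      (le_top.trans_eq (by simp) : U ≤ A.str ⁻¹ᵁ ⊤)
    rw [Category.assoc, ← h, IsAffineOpen.fromSpec_top, Scheme.isoSpec_Spec_inv,
      ← Spec.map_comp, ← Spec.map_comp]
    congr 1
    ext c
    exact hφ c⟩

theorem pointOfHom_range {U : A.X.Opens} (hU : IsAffineOpen U) (φ : Γ(A.X, U) →+* R) (hφ)
    (x : Spec (CommRingCat.of R)) : (A.pointOfHom hU φ hφ).1 x ∈ U := by
  show hU.fromSpec ((Spec.map (CommRingCat.ofHom φ)) x) ∈ U
  rw [← SetLike.mem_coe, ← hU.range_fromSpec]
  exact Set.mem_range_self _

section Valued

variable (W : ValuationSubring F) (hW : ∀ c : K, algebraMap K F c ∈ W)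

/-- The extension of a point to a valuation ring. -/
def extend (p : A.Pt F) : A.Pt (valAlg W hW) :=
  ((A.map_bijective_of_isFractionRing (valAlg W hW) F).surjective p).choose

theorem map_extend (p : A.Pt F) : A.map (valAlg W hW).val (A.extend W hW p) = p :=
  ((A.map_bijective_of_isFractionRing (valAlg W hW) F).surjective p).choose_spec

theorem extend_map (q : A.Pt (valAlg W hW)) :
    A.extend W hW (A.map (valAlg W hW).val q) = q :=
  (A.map_bijective_of_isFractionRing (valAlg W hW) F).injective (A.map_extend W hW _)

theorem extend_add (p q : A.Pt F) :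
    A.extend W hW (p + q) = A.extend W hW p + A.extend W hW q :=
  (A.map_bijective_of_isFractionRing (valAlg W hW) F).injective (by
    show A.map (valAlg W hW).val _ = A.map (valAlg W hW).val _
    rw [map_add, map_extend, map_extend, map_extend])

/-- The centre of a point at a valuation ring. -/
def centreAt (p : A.Pt F) : A.X := A.centre (A.extend W hW p)

theorem centre_specializes_centreAt (p : A.Pt F) : A.centre p ⤳ A.centreAt W hW p := by
  conv_lhs => rw [← A.map_extend W hW p]
  exact A.centre_map_specializes _ _

theorem evalAt_eq_evalAt_extend (p : A.Pt F) {z : A.FA}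
    (hz : z ∈ A.localRing (A.centreAt W hW p)) :
    A.evalAt p z = ((A.evalAt (A.extend W hW p) z : valAlg W hW) : F) := by
  conv_lhs => rw [← A.map_extend W hW p]
  rw [A.evalAt_map _ _ hz]
  rfl

theorem evalAt_mem (p : A.Pt F) {z : A.FA} (hz : z ∈ A.localRing (A.centreAt W hW p)) :
    A.evalAt p z ∈ W := by
  rw [A.evalAt_eq_evalAt_extend W hW p hz]
  exact (A.evalAt (A.extend W hW p) z).2

/-- If the values of the functions on an affine open lie in the valuation ring, the centre lies
in the open. -/
theorem centreAt_mem_of_secEval (p : A.Pt F) {U : A.X.Opens} (hU : IsAffineOpen U)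
    (hp : A.centre p ∈ U) (h : ∀ s, A.secEval p U hp s ∈ W) : A.centreAt W hW p ∈ U := by
  let φ : Γ(A.X, U) →+* valAlg W hW :=
    RingHom.codRestrict (A.secEval p U hp) (valAlg W hW).toSubring h
  have hc : ∀ c, A.secEval p U hp (A.X.presheaf.map (homOfLE (le_top : U ≤ ⊤)).op (A.constTop c))
      = algebraMap K F c := fun c => by
    refine Eq.trans ?_ (A.secEval_constTop p c)
    show (A.X.presheaf.map _ ≫ p.1.appLE U ⊤ _ ≫ (Scheme.ΓSpecIso _).hom) _ = _
    rw [Scheme.Hom.map_appLE_assoc]
    rfl
  let q : A.Pt (valAlg W hW) := A.pointOfHom hU φ fun c => Subtype.ext (hc c)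
  have hq : A.map (valAlg W hW).val q = p := by
    apply Subtype.ext
    show Spec.map _ ≫ Spec.map (CommRingCat.ofHom φ) ≫ hU.fromSpec = p.1
    rw [← Spec.map_comp_assoc]
    have h2 := IsAffineOpen.SpecMap_appLE_fromSpec p.1 hU (isAffineOpen_top _)
      (A.preimage_eq_top p hp).ge
    rw [IsAffineOpen.fromSpec_top, Scheme.isoSpec_Spec_inv] at h2
    have h3 : Spec.map (p.1.appLE U ⊤ (A.preimage_eq_top p hp).ge ≫
        (Scheme.ΓSpecIso (CommRingCat.of F)).hom) ≫ hU.fromSpec = p.1 := by
      rw [Spec.map_comp_assoc, h2, ← Category.assoc, ← Spec.map_comp, Iso.inv_hom_id,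
        Spec.map_id, Category.id_comp]
    exact h3
  have : A.extend W hW p = q := by rw [← hq, A.extend_map]
  rw [centreAt, this]
  exact A.pointOfHom_range hU φ _ _

end Valued

end AVData

end FermatLib.AV.Tors
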