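import Fermat.Agent.AV.Tors.Height.Diagonal

/-!
# The height is quadratic

The height is invariant under translation by constant points, since both sides are the height
after translation by the generic point; the third difference of the height vanishes by the
theorem of the square.
-/

set_option autoImplicit false

noncomputable section

universe u

open CategoryTheory AlgebraicGeometry IsLocalRing

namespace FermatLib.AV.Tors

variable {K : Type u} [Field K] [IsAlgClosed K] {g : ℕ} {A : AVData K g}
  {F : Type u} [Field F] [Algebra K F] [Curve.IsFunctionField K F]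

variable (A) in
/-- The generic point of `A` over an algebraic closure of the function field. -/
abbrev genPtClosure : A.Pt (AlgebraicClosure A.FA) :=
  A.map (IsScalarTower.toAlgHom K A.FA (AlgebraicClosure A.FA)) A.genPt

/-- Translation of a constant point does not change the height. -/
theorem height_add_const_eq_generic (D : CartierDiv A) (p : A.Pt F) (a : A.Pt K) :
    height K D (p + A.map (Algebra.ofId K F) a) =
      height (AlgebraicClosure A.FA) D (cfPt A (AlgebraicClosure A.FA) p (genPtClosure A)) := by
  let O := A.X.presheaf.stalk (A.centre a)
  let j : O →ₐ[K] AlgebraicClosure A.FA :=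
    (IsScalarTower.toAlgHom K A.FA (AlgebraicClosure A.FA)).comp (IsScalarTower.toAlgHom K O A.FA)
  have hj : Function.Injective j :=
    (algebraMap A.FA (AlgebraicClosure A.FA)).injective.comp
      (IsFractionRing.injective O A.FA)
  let φ : O →ₐ[K] K := { A.stalkEval a with commutes' := A.stalkEval_algebraMap a }
  have ha : A.map φ (A.taut (A.centre a)) = a :=
    Subtype.ext (Scheme.Spec_stalkClosedPointTo_fromSpecStalk a.1)
  have hgen : A.map (IsScalarTower.toAlgHom K O A.FA) (A.taut (A.centre a)) = A.genPt :=
    Subtype.ext (Scheme.SpecMap_stalkSpecializes_fromSpecStalk ((genericPoint_spec A.X).specializes trivial))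
  obtain ⟨σ, ψ, hψ, hred⟩ := exists_spz j hj φ
  have hy : A.map j (A.taut (A.centre a)) = genPtClosure A := by
    rw [genPtClosure, ← hgen, A.map_map]
  have h := σ.spzPt_map (A := A) ψ (A.taut (A.centre a))
  rw [hψ, hred, hy, ha] at h
  rw [height_cfPt_spzPt σ, h, ← height_cfPt_const (k := K),
    Subsingleton.elim (Algebra.ofId K K) (AlgHom.id K K), A.map_id]

theorem height_add_constant (D : CartierDiv A) (p : A.Pt F) (a : A.Pt K) :
    height K D (p + A.map (Algebra.ofId K F) a) = height K D p := by
  rw [height_add_const_eq_generic, ← height_add_const_eq_generic D p 0, map_zero, add_zero]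

theorem height_nsmul (D : CartierDiv A) (φ : DomEndo A)
    (hφ : ∀ (R : Type u) [CommRing R] [Algebra K R] (q : A.Pt R), φ.act q = -q)
    (p : A.Pt F) (n : ℕ) :
    height K (D * D.comap φ) (n • p) = (n : ℤ) ^ 2 * height K (D * D.comap φ) p :=
  height_nsmul_of_thirdDiff (hasZeroThirdDiff D (height_add_constant D)) (height_zero D) φ
    (hφ F) p n

end FermatLib.AV.Tors
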