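import Fermat.Agent.AV.Tors.Height.Extend
import Fermat.Agent.Curve.FunctionField
import Fermat.Agent.Curve.PlaceExtras

/-!
# The degree of a divisor on a point with values in a function field

For a point `p` with values in a function field `F` over `k`, the pullback of a divisor `D` is a
divisor of `F`; its degree is the height of `p`.
-/

set_option autoImplicit false

noncomputable section

universe u

open CategoryTheory AlgebraicGeometry IsLocalRing AlgebraicCurve TopologicalSpace Opposite

namespace FermatLib.AV.Tors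

variable {K : Type u} [Field K] {g : ℕ} {A : AVData K g}
  {k F : Type u} [Field k] [Algebra K k] [Field F] [Algebra k F] [Algebra K F]
  [IsScalarTower K k F]

omit [IsScalarTower K k F] in
theorem place_algebraMap_mem [IsScalarTower K k F] (v : Place k F) (c : K) :
    algebraMap K F c ∈ v.toValuationSubring := by
  rw [IsScalarTower.algebraMap_apply K k F]
  exact v.algebraMap_mem' _

/-- The centre of a point at a place. -/
def placeCentre (p : A.Pt F) (v : Place k F) : A.X :=
  A.centreAt v.toValuationSubring (place_algebraMap_mem v) p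

/-- A local equation of the pullback of `D` at a place. -/
def eqnAt (D : CartierDiv A) (p : A.Pt F) (v : Place k F) : F :=
  A.evalAt p (D.eqn (placeCentre p v) / D.eqn (A.centre p))

theorem isUnitAt_eqn_div (D : CartierDiv A) (p : A.Pt F) (v : Place k F) :
    A.IsUnitAt (A.centre p) (D.eqn (placeCentre p v) / D.eqn (A.centre p)) :=
  D.isUnitAt_of_specializes (A.centre_specializes_centreAt _ _ p)

theorem eqnAt_ne_zero (D : CartierDiv A) (p : A.Pt F) (v : Place k F) : eqnAt D p v ≠ 0 :=
  (isUnitAt_eqn_div D p v).isUnit_evalAt.ne_zero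

/-- Values at units have order zero. -/
theorem ord_evalAt_eq_zero (p : A.Pt F) (v : Place k F) {z : A.FA}
    (hz : A.IsUnitAt (placeCentre p v) z) : v.ord (A.evalAt p z) = 0 := by
  have hz' : A.IsUnitAt (A.centre p) z := hz.mono (A.centre_specializes_centreAt _ _ p)
  have h1 := Curve.ord_nonneg_of_mem_place v
    (A.evalAt_mem v.toValuationSubring (place_algebraMap_mem v) p hz.2.1)
  have h2 := Curve.ord_nonneg_of_mem_place v
    (A.evalAt_mem v.toValuationSubring (place_algebraMap_mem v) p hz.2.2)
  rw [show A.evalAt p z⁻¹ = (A.evalAt p z)⁻¹ from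
    eq_inv_of_mul_eq_one_right hz'.evalAt_mul_inv, v.ord_inv] at h2
  omega

/-- Any function differing from the equation at the centre by a unit computes the pullback. -/
theorem ord_evalAt_eq_ord_eqnAt (D : CartierDiv A) (p : A.Pt F) (v : Place k F) {h : A.FA}
    (hh : A.IsUnitAt (placeCentre p v) (h / D.eqn (placeCentre p v))) :
    v.ord (A.evalAt p (h / D.eqn (A.centre p))) = v.ord (eqnAt D p v) := by
  have h1 : A.IsUnitAt (A.centre p) (h / D.eqn (placeCentre p v)) :=
    hh.mono (A.centre_specializes_centreAt _ _ p)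
  rw [show h / D.eqn (A.centre p) =
    h / D.eqn (placeCentre p v) * (D.eqn (placeCentre p v) / D.eqn (A.centre p)) from
      (div_mul_div_cancel₀ (D.eqn_ne_zero _)).symm,
    A.evalAt_mul h1.2.1 (isUnitAt_eqn_div D p v).2.1]
  show v.ord (_ * eqnAt D p v) = _
  rw [v.ord_mul h1.isUnit_evalAt.ne_zero (eqnAt_ne_zero D p v), ord_evalAt_eq_zero p v hh, zero_add]

variable [Curve.IsFunctionField k F]

/-- Only finitely many places have their centre outside a neighbourhood of the generic centre. -/
theorem finite_setOf_placeCentre_notMem (p : A.Pt F) {U : A.X.Opens} (hp : A.centre p ∈ U) :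
    {v : Place k F | placeCentre p v ∉ U}.Finite := by
  classical
  obtain ⟨_, ⟨V, hV, rfl⟩, hpV, hVU⟩ :=
    A.X.isBasis_affineOpens.exists_subset_of_mem_open (show A.centre p ∈ (U : Set A.X) from hp)
      U.isOpen
  let e : (V : A.X.Opens) ≤ A.str ⁻¹ᵁ ⊤ := le_top.trans_eq (by simp)
  have hft : (A.str.appLE ⊤ V e).hom.FiniteType :=
    HasRingHomProperty.appLE @LocallyOfFiniteType A.str inferInstance
      ⟨⊤, isAffineOpen_top _⟩ ⟨V, hV⟩ e
  algebraize [(A.str.appLE ⊤ V e).hom]
  obtain ⟨s, hs⟩ := Algebra.FiniteType.out (R := Γ(Spec (CommRingCat.of K), ⊤)) (A := Γ(A.X, V))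
  let bad : Set (Place k F) := ⋃ x ∈ s, {v | v.ord (A.secEval p V hpV x) ≠ 0}
  have hbad : bad.Finite :=
    s.finite_toSet.biUnion fun x _ => Curve.finite_setOf_ord_ne_zero _
  refine hbad.subset fun v hv => ?_
  by_contra hgood
  apply hv
  refine hVU (A.centreAt_mem_of_secEval _ _ p hV hpV fun x => ?_)
  have hx : x ∈ Algebra.adjoin Γ(Spec (CommRingCat.of K), ⊤) (s : Set Γ(A.X, V)) :=
    hs ▸ Algebra.mem_top
  induction hx using Algebra.adjoin_induction with
  | mem y hy =>
    by_contra hy'
    exact hgood (Set.mem_biUnion hy fun e0 => hy' ((Curve.mem_iff_eq_zero_or_ord_nonneg v).mpr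
      (Or.inr e0.ge)))
  | algebraMap c =>
    obtain ⟨a, rfl⟩ : ∃ a : K, (Scheme.ΓSpecIso (CommRingCat.of K)).inv a = c :=
      ⟨(Scheme.ΓSpecIso (CommRingCat.of K)).hom c, Iso.hom_inv_id_apply _ _⟩
    have h0 := place_algebraMap_mem v a
    convert h0 using 1
    refine Eq.trans ?_ (A.secEval_constTop p a)
    show A.secEval p V hpV (A.str.appLE ⊤ V e ((Scheme.ΓSpecIso (CommRingCat.of K)).inv a)) = _
    show (((Scheme.ΓSpecIso (CommRingCat.of K)).inv ≫ A.str.appLE ⊤ V e) ≫ p.1.appLE V ⊤ _ ≫
      (Scheme.ΓSpecIso _).hom) a = (((Scheme.ΓSpecIso (CommRingCat.of K)).inv ≫ A.str.appTop) ≫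
      p.1.appLE ⊤ ⊤ _ ≫ (Scheme.ΓSpecIso _).hom) a
    have e2 : A.str.appTop = A.str.appLE ⊤ ⊤ le_top := by
      simp [Scheme.Hom.appTop, Scheme.Hom.app_eq_appLE]
    simp only [Category.assoc, Scheme.Hom.appLE_comp_appLE_assoc, e2]
  | add a b _ _ ha hb => rw [map_add]; exact add_mem ha hb
  | mul a b _ _ ha hb => rw [map_mul]; exact mul_mem ha hb

theorem finite_setOf_ord_eqnAt (D : CartierDiv A) (p : A.Pt F) :
    {v : Place k F | v.ord (eqnAt D p v) ≠ 0}.Finite := by
  obtain ⟨U, hU, hD⟩ := D.loc (A.centre p)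
  refine (finite_setOf_placeCentre_notMem p hU).subset fun v hv hmem => hv ?_
  have := (hD _ hmem).inv
  rw [inv_div] at this
  exact ord_evalAt_eq_zero p v this

variable (k) in
/-- The pullback of a divisor to the function field. -/
def pullDiv (D : CartierDiv A) (p : A.Pt F) : Divisor k F :=
  Finsupp.ofSupportFinite (fun v => v.ord (eqnAt D p v)) (finite_setOf_ord_eqnAt D p)

theorem pullDiv_apply (D : CartierDiv A) (p : A.Pt F) (v : Place k F) :
    pullDiv k D p v = v.ord (eqnAt D p v) := rfl

variable (k) in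
/-- The height of a point. -/
def height (D : CartierDiv A) (p : A.Pt F) : ℤ := Divisor.degree (pullDiv k D p)

theorem pullDiv_mul (D E : CartierDiv A) (p : A.Pt F) :
    pullDiv k (D * E) p = pullDiv k D p + pullDiv k E p := by
  ext v
  rw [Finsupp.add_apply, pullDiv_apply, pullDiv_apply, pullDiv_apply,
    ← v.ord_mul (eqnAt_ne_zero D p v) (eqnAt_ne_zero E p v)]
  simp only [eqnAt]
  rw [← A.evalAt_mul (isUnitAt_eqn_div D p v).2.1 (isUnitAt_eqn_div E p v).2.1]
  simp [div_mul_div_comm]

theorem pullDiv_one (p : A.Pt F) : pullDiv k (1 : CartierDiv A) p = 0 := by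
  ext v
  simp [pullDiv_apply, eqnAt]

theorem height_mul (D E : CartierDiv A) (p : A.Pt F) :
    height k (D * E) p = height k D p + height k E p := by
  rw [height, pullDiv_mul, map_add]; rfl

theorem height_one (p : A.Pt F) : height k (1 : CartierDiv A) p = 0 := by
  rw [height, pullDiv_one, map_zero]

theorem height_npow (D : CartierDiv A) (n : ℕ) (p : A.Pt F) :
    height k (D.npow n) p = n * height k D p := by
  induction n with
  | zero => simp [CartierDiv.npow, height_one]
  | succ n ih => rw [CartierDiv.npow, height_mul, ih]; push_cast; ring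

omit [Curve.IsFunctionField k F] in
theorem placeCentre_act (φ : DomEndo A) (p : A.Pt F) (v : Place k F) :
    placeCentre (φ.act p) v = φ.hom (placeCentre p v) := by
  rw [placeCentre, AVData.centreAt]
  conv_lhs => rw [← A.map_extend v.toValuationSubring (place_algebraMap_mem v) p, ← φ.map_act,
    A.extend_map]
  rfl

theorem pullDiv_comap (φ : DomEndo A) (D : CartierDiv A) (p : A.Pt F) :
    pullDiv k (D.comap φ) p = pullDiv k D (φ.act p) := by
  ext v
  rw [pullDiv_apply, pullDiv_apply]
  congr 1
  simp only [eqnAt]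
  show A.evalAt p (φ.comap (D.eqn (φ.hom (placeCentre p v))) /
      φ.comap (D.eqn (φ.hom (A.centre p)))) = _
  rw [placeCentre_act, ← map_div₀, ← φ.evalAt_act]
  · rfl
  · exact (D.isUnitAt_of_specializes
      ((A.centre_specializes_centreAt _ _ p).map φ.hom.continuous)).2.1

theorem height_comap (φ : DomEndo A) (D : CartierDiv A) (p : A.Pt F) :
    height k (D.comap φ) p = height k D (φ.act p) := by
  rw [height, pullDiv_comap]; rfl

/-- A section of `D` not vanishing at the generic centre gives an effective divisor in the class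
of the pullback. -/
theorem nonneg_of_mem_sections (D : CartierDiv A) (p : A.Pt F) (v : Place k F) {s : A.FA}
    (hs : s ∈ D.sections) (h0 : A.evalAt p (s * D.eqn (A.centre p)) ≠ 0) :
    0 ≤ v.ord (A.evalAt p (s * D.eqn (A.centre p))) + pullDiv k D p v ∧
      v.ord (A.evalAt p (s * D.eqn (A.centre p))) + pullDiv k D p v =
        v.ord (A.evalAt p (s * D.eqn (placeCentre p v))) := by
  have hprod : A.evalAt p (s * D.eqn (A.centre p)) * eqnAt D p v =
      A.evalAt p (s * D.eqn (placeCentre p v)) := by
    rw [eqnAt, ← A.evalAt_mul (hs _) (isUnitAt_eqn_div D p v).2.1]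
    congr 1
    field_simp [D.eqn_ne_zero]
  have h2 : v.ord (A.evalAt p (s * D.eqn (A.centre p))) + pullDiv k D p v =
      v.ord (A.evalAt p (s * D.eqn (placeCentre p v))) := by
    rw [← hprod, v.ord_mul h0 (eqnAt_ne_zero D p v), pullDiv_apply]
  exact ⟨h2 ▸ Curve.ord_nonneg_of_mem_place v
    (A.evalAt_mem v.toValuationSubring (place_algebraMap_mem v) p (hs _)), h2⟩

end FermatLib.AV.Tors
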