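import Fermat.Agent.AV.Tors.Height.Degree
import Fermat.Agent.AV.Tors.Geom.Tangent

/-!
# From the vanishing third difference to quadraticity

If the third difference of the height vanishes, the height of a symmetric divisor satisfies the
parallelogram law, so it is quadratic.
-/

set_option autoImplicit false

noncomputable section

universe u

open CategoryTheory AlgebraicGeometry IsLocalRing AlgebraicCurve

namespace FermatLib.AV.Tors

variable {K : Type u} [Field K] {g : ℕ} {A : AVData K g}
  {F : Type u} [Field F] [Algebra K F] [Curve.IsFunctionField K F]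

/-- The vanishing of the third difference of the height on the points over `F`. -/
def HasZeroThirdDiff (K : Type u) [Field K] {g : ℕ} {A : AVData K g} (F : Type u) [Field F]
    [Algebra K F] [Curve.IsFunctionField K F] (D : CartierDiv A) : Prop :=
  ∀ p q r : A.Pt F, height K D (p + q + r) - height K D (p + q) - height K D (p + r)
    - height K D (q + r) + height K D p + height K D q + height K D r - height K D (0 : A.Pt F) = 0

theorem HasZeroThirdDiff.mul {D E : CartierDiv A} (hD : HasZeroThirdDiff K F D)
    (hE : HasZeroThirdDiff K F E) : HasZeroThirdDiff K F (D * E) := fun p q r => by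
  have h1 := hD p q r
  have h2 := hE p q r
  simp only [height_mul]
  linarith

theorem HasZeroThirdDiff.comap_neg {D : CartierDiv A} (hD : HasZeroThirdDiff K F D)
    (φ : DomEndo A) (hφ : ∀ q : A.Pt F, φ.act q = -q) :
    HasZeroThirdDiff K F (D.comap φ) := fun p q r => by
  simp only [height_comap, hφ, neg_add, neg_zero]
  exact hD (-p) (-q) (-r)

/-- A height with vanishing third difference, symmetric and zero at zero, is quadratic. -/
theorem apply_nsmul_of_thirdDiff {G : Type*} [AddCommGroup G] {h : G → ℤ} (h0 : h 0 = 0)
    (hneg : ∀ p, h (-p) = h p)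
    (h3 : ∀ p q r, h (p + q + r) - h (p + q) - h (p + r) - h (q + r) + h p + h q + h r - h 0 = 0)
    (p : G) (n : ℕ) : h (n • p) = (n : ℤ) ^ 2 * h p := by
  have hpar : ∀ a b, h (a + b) + h (a + -b) = 2 * h a + 2 * h b := fun a b => by
    have := h3 a b (-b)
    rw [add_neg_cancel_right, add_neg_cancel, h0, hneg] at this
    linarith
  suffices H : h (n • p) = (n : ℤ) ^ 2 * h p ∧ h ((n + 1) • p) = ((n : ℤ) + 1) ^ 2 * h p from H.1
  induction n with
  | zero => simp [h0]
  | succ n ih =>
    refine ⟨by push_cast; exact ih.2, ?_⟩
    have := hpar ((n + 1) • p) p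
    rw [← succ_nsmul, succ_nsmul p n, add_neg_cancel_right, ← succ_nsmul, ih.1, ih.2] at this
    push_cast
    linear_combination this

/-- Quadraticity of the symmetrised height. -/
theorem height_nsmul_of_thirdDiff {D : CartierDiv A} (hD : HasZeroThirdDiff K F D)
    (h0 : height K D (0 : A.Pt F) = 0) (φ : DomEndo A) (hφ : ∀ q : A.Pt F, φ.act q = -q)
    (p : A.Pt F) (n : ℕ) :
    height K (D * D.comap φ) (n • p) = (n : ℤ) ^ 2 * height K (D * D.comap φ) p := by
  refine apply_nsmul_of_thirdDiff ?_ (fun q => ?_) (hD.mul (hD.comap_neg φ hφ)) p n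
  · rw [height_mul, height_comap, hφ, neg_zero, h0, add_zero]
  · simp only [height_mul, height_comap, hφ, neg_neg]
    exact add_comm _ _

/-- Constant points at the origin have height zero. -/
theorem height_zero_of_constant (D : CartierDiv A) {p : A.Pt F} {c : A.X}
    (h : ∀ v : Place K F, placeCentre p v = c) (hc : A.centre p = c) : height K D p = 0 := by
  have : pullDiv K D p = 0 := Finsupp.ext fun v => by
    rw [pullDiv_apply, eqnAt, h, hc, div_self (D.eqn_ne_zero _), AVData.evalAt_one]
    exact v.ord_one
  rw [height, this, map_zero]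

/-- The origin has height zero. -/
theorem height_zero (D : CartierDiv A) : height K D (0 : A.Pt F) = 0 := by
  refine height_zero_of_constant D (c := A.orig) (fun v => ?_) A.centre_zero
  have h0 : A.extend v.toValuationSubring (place_algebraMap_mem (K := K) v) (0 : A.Pt F) = 0 := by
    have h := A.extend_add v.toValuationSubring (place_algebraMap_mem (K := K) v) (0 : A.Pt F) 0
    rwa [add_zero, left_eq_add] at h
  rw [placeCentre, AVData.centreAt, h0, A.centre_zero]

end FermatLib.AV.Tors
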