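import Fermat.Agent.AV.Tors.Height.Rigidity
import Fermat.Agent.AV.Tors.Height.Parallelogram

/-!
# The diagonal: from the theorem of the square to the vanishing third difference

The function of the theorem of the square over the algebraic closure `L` of `F` has values at the
diagonal place and at a horizontal place of the constant extension. Along every valuation ring of
`L` over a place `v` of `F` both values differ from the local equations at `v` by the same scalar,
so the norm of their quotient relates the two pullbacks.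
-/

set_option autoImplicit false
set_option linter.unusedSectionVars false

noncomputable section

universe u

open CategoryTheory AlgebraicGeometry IsLocalRing AlgebraicCurve

namespace FermatLib.AV.Tors

variable {K : Type u} [Field K] {g : ℕ} {A : AVData K g}

namespace AVData

variable {F E : Type u} [Field F] [Algebra K F] [Field E] [Algebra K E]

/-- Extensions along valuation rings are functorial. -/
theorem extend_map_field (ι : F →ₐ[K] E) (W : ValuationSubring F)
    (hW : ∀ c : K, algebraMap K F c ∈ W) (V : ValuationSubring E)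
    (hV : ∀ c : K, algebraMap K E c ∈ V) (r : valAlg W hW →ₐ[K] valAlg V hV)
    (hr : ∀ b, (r b : E) = ι b) (p : A.Pt F) :
    A.extend V hV (A.map ι p) = A.map r (A.extend W hW p) := by
  rw [← A.extend_map V hV (A.map r (A.extend W hW p)), A.map_map]
  congr 1
  conv_lhs => rw [← A.map_extend W hW p, A.map_map]
  exact congrArg (A.map · _) (AlgHom.ext fun b => (hr b).symm)

end AVData

/-- A product of the shape of the second difference. -/
abbrev quot4 {M : Type*} [Mul M] [Inv M] (a b c d : M) : M := a * b⁻¹ * c⁻¹ * d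

theorem map_quot4 {M N : Type*} [Field M] [Field N] (f : M →+* N) (a b c d : M) :
    f (quot4 a b c d) = quot4 (f a) (f b) (f c) (f d) := by
  simp only [quot4, map_mul, map_inv₀]

theorem quot4_ne_zero {M : Type*} [Field M] {a b c d : M} (ha : a ≠ 0) (hb : b ≠ 0) (hc : c ≠ 0)
    (hd : d ≠ 0) : quot4 a b c d ≠ 0 :=
  mul_ne_zero (mul_ne_zero (mul_ne_zero ha (inv_ne_zero hb)) (inv_ne_zero hc)) hd

variable [IsAlgClosed K] {F : Type u} [Field F] [Algebra K F] [Curve.IsFunctionField K F]
  {L : Type u} [Field L] [Algebra K L] [IsAlgClosed L]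

/-- The value of `P + y` at a place where the functions regular on `W` have values `φ`. -/
theorem placeValue_cfPt_of_value (P : A.Pt F) (y : A.Pt L) (e : Place L (CF K L F))
    (W : ValuationSubring F) (hW : ∀ c : K, algebraMap K F c ∈ W)
    (φ : valAlg W hW →ₐ[K] L) (hφ : ∀ b : valAlg W hW, IsValue e (iF K L F (b : F)) (φ b)) :
    placeValue (cfPt A L P y) e = A.map φ (A.extend W hW P) + y := by
  let hV := place_algebraMap_mem (K := K) (k := L) e
  let r : valAlg W hW →ₐ[K] valAlg e.toValuationSubring hV :=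
    ((iF K L F).comp (valAlg W hW).val).codRestrict _ fun b => (hφ b).mem
  let s : L →ₐ[K] valAlg e.toValuationSubring hV :=
    (iC K L F).codRestrict _ fun x => e.algebraMap_mem' x
  rw [cfPt, placeValue_add]
  congr 1
  · rw [placeValue, A.extend_map_field (iF K L F) W hW e.toValuationSubring hV r (fun _ => rfl),
      A.map_map]
    exact congrArg (A.map · _) (AlgHom.ext fun b => (isValue_valueHom e hV (r b)).eq (hφ b))
  · have h1 : A.extend e.toValuationSubring hV (A.map (iC K L F) y) = A.map s y := by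
      rw [← A.extend_map e.toValuationSubring hV (A.map s y), A.map_map]
      rfl
    have h2 : (valueHom e hV).comp s = AlgHom.id K L :=
      AlgHom.ext fun x => (isValue_valueHom e hV (s x)).eq (isValue_algebraMap e x)
    rw [placeValue, h1, A.map_map, h2, A.map_id]

/-- The value at a specialised place is the specialised value. -/
theorem spzPt_placeValue {σ : Spz K L K} {c : Place K (CF K K F)} {e : Place L (CF K L F)}
    (h : σ.Specializes c e) (P : A.Pt F) (y : A.Pt L) :
    σ.spzPt (placeValue (cfPt A L P y) e) = placeValue (cfPt A K P (σ.spzPt y)) c := by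
  obtain ⟨χ, h1, h2⟩ := h
  rw [placeValue_cfPt_of_value P y e _ _ (σ.VA.val.comp χ) h1,
    placeValue_cfPt_of_value P (σ.spzPt y) c _ _ (σ.red.comp χ) h2, σ.spzPt_add, σ.spzPt_map]

/-- Value of a generic equation against the equation at a place of the special fibre. -/
theorem exists_value_eqn (D : CartierDiv A) {σ : Spz K L K} {c : Place K (CF K K F)}
    {e : Place L (CF K L F)} (h : σ.Specializes c e) (P : A.Pt F) (y : A.Pt L) :
    ∃ (Z : CF K L F) (Q : A.Pt L), Q = placeValue (cfPt A L P y) e ∧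
      eqnAt D (cfPt A L P y) e * Z = A.evalAt (cfPt A L P y)
        (D.eqn (placeCentre (cfPt A K P (σ.spzPt y)) c) / D.eqn (A.centre (cfPt A L P y))) ∧
      IsValue e Z (A.evalAt Q (D.eqn (A.centreAt σ.V σ.hV Q) / D.eqn (A.centre Q))) ∧
      A.evalAt Q (D.eqn (A.centreAt σ.V σ.hV Q) / D.eqn (A.centre Q)) ≠ 0 := by
  set pt := cfPt A L P y
  set Q := placeValue pt e
  have : IsLocalHom σ.red.toRingHom := ⟨fun a ha => by
    by_contra hn
    exact ha.ne_zero ((σ.ker_red a).mpr hn)⟩
  have hc : placeCentre (cfPt A K P (σ.spzPt y)) c = A.centreAt σ.V σ.hV Q := by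
    rw [← centre_placeValue, ← spzPt_placeValue h]
    exact A.centre_map σ.red _
  have hce : A.centre Q = placeCentre pt e := centre_placeValue pt e
  have hu : A.IsUnitAt (A.centre Q) (D.eqn (A.centreAt σ.V σ.hV Q) / D.eqn (A.centre Q)) :=
    D.isUnitAt_of_specializes (A.centre_specializes_centreAt σ.V σ.hV Q)
  refine ⟨A.evalAt pt (D.eqn (A.centreAt σ.V σ.hV Q) / D.eqn (A.centre Q)), Q, rfl, ?_,
    isValue_evalAt pt e (hce ▸ hu.2.1), hu.isUnit_evalAt.ne_zero⟩
  have hu' : A.IsUnitAt (A.centre pt) (D.eqn (A.centreAt σ.V σ.hV Q) / D.eqn (A.centre Q)) :=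
    (hce ▸ hu : A.IsUnitAt (placeCentre pt e) _).mono (A.centre_specializes_centreAt _ _ pt)
  rw [eqnAt, ← A.evalAt_mul (isUnitAt_eqn_div D pt e).2.1 hu'.2.1, hc]
  congr 1
  rw [hce]
  field_simp [D.eqn_ne_zero]

theorem valuation_eq_one_of_mem {V : ValuationSubring L} {x : L} (hx : x ∈ V) (hx' : x⁻¹ ∈ V)
    (h0 : x ≠ 0) : V.valuation x = 1 := by
  refine le_antisymm ((V.valuation_le_one_iff x).mpr hx) ?_
  have h := (V.valuation_le_one_iff _).mpr hx'
  rwa [map_inv₀, inv_le_one₀ (zero_lt_iff.mpr ((map_ne_zero _).mpr h0))] at h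

/-- The generic equation of a divisor system against its scaled function, at a specialisation. -/
theorem exists_value_scale {σ : Spz K L K} (S : DivSystem σ F) {f : CF K L F} (hf : f ≠ 0)
    (hS : ∀ v : Place L (CF K L F), v.ord f + S.divL v = 0) {l : L} (hl : l ≠ 0) {z : σ.Rw F}
    (hz0 : σ.wK F z ≠ 0) (hz : f * S.mult = algebraMap L _ l * σ.wL F z)
    {c : Place K (CF K K F)} {e : Place L (CF K L F)} (h : σ.Specializes c e) :
    ∃ u : L, σ.V.valuation u = 1 ∧
      IsValue e (f * (S.mult * σ.wL F (S.eqn c))) (l * u) := by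
  obtain ⟨r, hru, hr⟩ := S.exists_cW_unit hf hl hz0 hz (c := c) fun v _ => hS v
  obtain ⟨x, hx1, hx2⟩ := h.exists_value r
  have hred : σ.red x ≠ 0 := fun h0 => by
    have hu := hru.map (σ.cC (placeBase c) c (iF_mem_of_placeBase c))
    have hmem := hx2.eq_zero_iff.mp h0
    have hne : (σ.cC (placeBase c) c (iF_mem_of_placeBase c) r : CF K K F) ≠ 0 :=
      fun e0 => hu.ne_zero (Subtype.ext e0)
    have hle := Curve.le_ord_of_mem hmem hne
    have hord := Curve.ord_eq_zero_of_isUnit c
      (u := ⟨(σ.cC (placeBase c) c (iF_mem_of_placeBase c) r : CF K K F),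
        (σ.cC (placeBase c) c (iF_mem_of_placeBase c) r).2⟩) hu
    change c.ord (σ.cC (placeBase c) c (iF_mem_of_placeBase c) r : CF K K F) = 0 at hord
    omega
  have hx0 : (x : L) ≠ 0 := fun h0 => hred (by
    rw [show x = 0 from Subtype.ext h0, map_zero])
  have hxinv : (x : L)⁻¹ ∈ σ.V := by
    by_contra hn
    exact hred (σ.red_eq_zero_of_inv_notMem x.2 hn)
  refine ⟨x, valuation_eq_one_of_mem x.2 hxinv hx0, ?_⟩
  rw [← mul_assoc, hz, mul_assoc, ← map_mul, ← hr]
  exact (isValue_algebraMap e l).mul hx1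

/-- The value at `e` of the normalised function of the theorem of the square. -/
theorem exists_value_square (D : CartierDiv A) (P : A.Pt F) (q r : A.Pt L) {f : CF K L F}
    (hf : f ≠ 0)
    (hsq : ∀ c : Place L (CF K L F), c.ord f + (pullDiv L D (cfPt A L P (q + r)) c
      - pullDiv L D (cfPt A L P q) c - pullDiv L D (cfPt A L P r) c
      + pullDiv L D (cfPt A L P 0) c) = 0) (e : Place L (CF K L F)) :
    ∃ x : L, x ≠ 0 ∧ IsValue e (f * quot4 (eqnAt D (cfPt A L P (q + r)) e)
      (eqnAt D (cfPt A L P q) e) (eqnAt D (cfPt A L P r) e) (eqnAt D (cfPt A L P 0) e)) x := by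
  set H := f * quot4 (eqnAt D (cfPt A L P (q + r)) e) (eqnAt D (cfPt A L P q) e)
    (eqnAt D (cfPt A L P r) e) (eqnAt D (cfPt A L P 0) e)
  have h1 := eqnAt_ne_zero D (cfPt A L P (q + r)) e
  have h2 := eqnAt_ne_zero D (cfPt A L P q) e
  have h3 := eqnAt_ne_zero D (cfPt A L P r) e
  have h4 := eqnAt_ne_zero D (cfPt A L P 0) e
  have hH0 : H ≠ 0 := mul_ne_zero hf (quot4_ne_zero h1 h2 h3 h4)
  have hord : e.ord H = 0 := by
    have h := hsq e
    simp only [pullDiv_apply] at h
    simp only [H, quot4]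
    rw [e.ord_mul hf (quot4_ne_zero h1 h2 h3 h4),
      e.ord_mul (mul_ne_zero (mul_ne_zero h1 (inv_ne_zero h2)) (inv_ne_zero h3)) h4,
      e.ord_mul (mul_ne_zero h1 (inv_ne_zero h2)) (inv_ne_zero h3),
      e.ord_mul h1 (inv_ne_zero h2), e.ord_inv, e.ord_inv]
    linarith
  obtain ⟨x, hx⟩ := exists_isValue e ((Curve.mem_iff_ord_nonneg e hH0).mpr hord.ge)
  refine ⟨x, fun h0 => ?_, hx⟩
  have := Curve.le_ord_of_mem (hx.eq_zero_iff.mp h0) hH0
  omega

/-- The local equation at `v` of the values of the four points at `e`, in the constants. -/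
abbrev valueEqn (D : CartierDiv A) (σ : Spz K L K) (P : A.Pt F) (y : A.Pt L)
    (e : Place L (CF K L F)) : L :=
  A.evalAt (placeValue (cfPt A L P y) e)
    (D.eqn (A.centreAt σ.V σ.hV (placeValue (cfPt A L P y) e)) /
      D.eqn (A.centre (placeValue (cfPt A L P y) e)))

/-- At all specialised places the value and the local equations differ by the same scalar. -/
theorem exists_common_scalar (D : CartierDiv A) (P : A.Pt F) (q r : A.Pt L) {f : CF K L F}
    (hf : f ≠ 0)
    (hsq : ∀ c : Place L (CF K L F), c.ord f + (pullDiv L D (cfPt A L P (q + r)) c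
      - pullDiv L D (cfPt A L P q) c - pullDiv L D (cfPt A L P r) c
      + pullDiv L D (cfPt A L P 0) c) = 0) (σ : Spz K L K) :
    ∃ l : L, l ≠ 0 ∧ ∀ (c : Place K (CF K K F)) (e : Place L (CF K L F)) (x : L),
      σ.Specializes c e → x ≠ 0 →
      IsValue e (f * quot4 (eqnAt D (cfPt A L P (q + r)) e) (eqnAt D (cfPt A L P q) e)
        (eqnAt D (cfPt A L P r) e) (eqnAt D (cfPt A L P 0) e)) x →
      σ.V.valuation (x * quot4 (valueEqn D σ P (q + r) e) (valueEqn D σ P q e)
        (valueEqn D σ P r e) (valueEqn D σ P 0 e)) = σ.V.valuation l := by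
  let T := fun y => DivSystem.ofPoint σ D P y
  let S := T (q + r) - T q - T r + T 0
  have hS : ∀ v : Place L (CF K L F), v.ord f + S.divL v = 0 := fun v => by
    simpa [S, T] using hsq v
  obtain ⟨l, z, hl, hz0, hz⟩ := σ.exists_scale F (mul_ne_zero hf S.mult_ne)
  refine ⟨l, hl, fun c e x hce hx0 hx => ?_⟩
  obtain ⟨u, hu, hval⟩ := exists_value_scale S hf hS hl hz0 hz hce
  obtain ⟨Z1, _, rfl, m1, v1, n1⟩ := exists_value_eqn D hce P (q + r)
  obtain ⟨Z2, _, rfl, m2, v2, n2⟩ := exists_value_eqn D hce P q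
  obtain ⟨Z3, _, rfl, m3, v3, n3⟩ := exists_value_eqn D hce P r
  obtain ⟨Z4, _, rfl, m4, v4, n4⟩ := exists_value_eqn D hce P 0
  have hM : S.mult * σ.wL F (S.eqn c) =
      quot4 ((T (q + r)).mult * σ.wL F ((T (q + r)).eqn c))
        ((T q).mult * σ.wL F ((T q).eqn c)) ((T r).mult * σ.wL F ((T r).eqn c))
        ((T 0).mult * σ.wL F ((T 0).eqn c)) := by
    show ((T (q + r)).mult * (T q).mult⁻¹ * (T r).mult⁻¹ * (T 0).mult) *
      σ.wL F (((T (q + r)).eqn c * ((T q).eqn c)⁻¹ * ((T r).eqn c)⁻¹ * (T 0).eqn c :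
        (σ.Rw F)ˣ) : σ.Rw F) = _
    simp only [Units.val_mul, map_mul, map_units_inv, quot4, mul_inv]
    ring
  rw [hM, DivSystem.ofPoint_mult_eqn, DivSystem.ofPoint_mult_eqn, DivSystem.ofPoint_mult_eqn,
    DivSystem.ofPoint_mult_eqn, ← m1, ← m2, ← m3, ← m4] at hval
  have h := ((hx.mul v1).mul (v2.inv n2)).mul (v3.inv n3) |>.mul v4
  have hcomm : f * quot4 (eqnAt D (cfPt A L P (q + r)) e * Z1) (eqnAt D (cfPt A L P q) e * Z2)
      (eqnAt D (cfPt A L P r) e * Z3) (eqnAt D (cfPt A L P 0) e * Z4) =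
      f * quot4 (eqnAt D (cfPt A L P (q + r)) e) (eqnAt D (cfPt A L P q) e)
        (eqnAt D (cfPt A L P r) e) (eqnAt D (cfPt A L P 0) e) * Z1 * Z2⁻¹ * Z3⁻¹ * Z4 := by
    simp only [quot4, mul_inv]
    ring
  rw [hcomm] at hval
  have heq := h.eq hval
  have hfinal : x * quot4 (valueEqn D σ P (q + r) e) (valueEqn D σ P q e) (valueEqn D σ P r e)
      (valueEqn D σ P 0 e) = l * u := by
    rw [← heq]
    simp only [quot4, valueEqn]
    ring
  rw [hfinal, map_mul, hu, mul_one]

section Conjugates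

variable [Algebra F L] [IsScalarTower K F L]

/-- A specialisation over the place `v` of `F`. -/
def OverPlace (σ : Spz K L K) (v : Place K F) : Prop :=
  ∃ ψ : valAlg v.toValuationSubring (place_algebraMap_mem (K := K) v) →ₐ[K] σ.VA,
    (∀ b, (ψ b : L) = algebraMap F L b) ∧ σ.red.comp ψ = valueHom v (place_algebraMap_mem v)

theorem exists_overPlace (v : Place K F) : ∃ σ : Spz K L K, OverPlace σ v := by
  obtain ⟨σ, ψ, h1, h2⟩ := exists_spz
    ((IsScalarTower.toAlgHom K F L).comp
      (valAlg v.toValuationSubring (place_algebraMap_mem (K := K) v)).val)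
    ((algebraMap F L).injective.comp Subtype.val_injective)
    (valueHom v (place_algebraMap_mem v))
  exact ⟨σ, ψ, fun b => AlgHom.congr_fun h1 b, h2⟩

theorem OverPlace.valueEqn_map {σ : Spz K L K} {v : Place K F} (h : OverPlace σ v)
    (D : CartierDiv A) {Q : A.Pt L} {Q₀ : A.Pt F}
    (hQ : Q = A.map (IsScalarTower.toAlgHom K F L) Q₀) :
    A.evalAt Q (D.eqn (A.centreAt σ.V σ.hV Q) / D.eqn (A.centre Q)) =
      algebraMap F L (eqnAt D Q₀ v) := by
  subst hQ
  obtain ⟨ψ, hψ, hred⟩ := h
  have : IsLocalHom ψ.toRingHom := ⟨fun b hb => by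
    have hb' : IsUnit (valueHom v (place_algebraMap_mem v) b) := by
      rw [← hred]
      exact hb.map σ.red
    exact (isLocalHom_valueHom v (place_algebraMap_mem (K := K) v)).map_nonunit b hb'⟩
  have : IsLocalHom (IsScalarTower.toAlgHom K F L).toRingHom :=
    ⟨fun a ha => isUnit_iff_ne_zero.mpr fun e => by simp [e] at ha⟩
  have hcV : A.centreAt σ.V σ.hV (A.map (IsScalarTower.toAlgHom K F L) Q₀) = placeCentre Q₀ v := by
    rw [AVData.centreAt, A.extend_map_field (IsScalarTower.toAlgHom K F L) _ _ σ.V σ.hV ψ hψ,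
      A.centre_map]
    rfl
  rw [hcV, A.centre_map, A.evalAt_map _ _ (isUnitAt_eqn_div D Q₀ v).2.1]
  rfl

theorem OverPlace.comp {σ : Spz K L K} {v : Place K F} (h : OverPlace σ v) (τ : L ≃ₐ[F] L) :
    ∃ σ' : Spz K L K, OverPlace σ' v ∧
      ∀ x : L, σ'.V.valuation x = 1 → σ.V.valuation (τ x) = 1 := by
  obtain ⟨ψ, hψ, hred⟩ := h
  let V' : ValuationSubring L := σ.V.comap (τ : L →+* L)
  have hV' : ∀ c : K, algebraMap K L c ∈ V' := fun c => by
    show τ (algebraMap K L c) ∈ σ.V
    rw [IsScalarTower.algebraMap_apply K F L, τ.commutes, ← IsScalarTower.algebraMap_apply]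
    exact σ.hV c
  let t : valAlg V' hV' →ₐ[K] σ.VA :=
    ((τ.toAlgHom.restrictScalars K).comp (valAlg V' hV').val).codRestrict σ.VA fun x => x.2
  have hker : ∀ x, σ.red.comp t x = 0 ↔ x ∈ maximalIdeal (valAlg V' hV') := fun x => by
    rw [AlgHom.comp_apply, σ.ker_red]
    constructor
    · exact fun hx hu => hx (hu.map t)
    · intro hx hu
      obtain ⟨y, hy⟩ := hu.exists_right_inv
      refine hx (.of_mul_eq_one ⟨τ.symm y, ?_⟩ (Subtype.ext ?_))
      · show τ (τ.symm y) ∈ σ.V
        rw [AlgEquiv.apply_symm_apply]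
        exact y.2
      · apply τ.injective
        show τ ((x : L) * τ.symm y) = τ 1
        rw [map_mul, AlgEquiv.apply_symm_apply, map_one]
        exact congrArg Subtype.val hy
  let σ' : Spz K L K := ⟨V', hV', σ.red.comp t, hker⟩
  let ψ' : valAlg v.toValuationSubring (place_algebraMap_mem (K := K) v) →ₐ[K] σ'.VA :=
    ((IsScalarTower.toAlgHom K F L).comp
      (valAlg v.toValuationSubring (place_algebraMap_mem (K := K) v)).val).codRestrict σ'.VA
      fun b => by
        show τ (algebraMap F L b) ∈ σ.V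
        rw [τ.commutes, ← hψ]
        exact (ψ b).2
  refine ⟨σ', ⟨ψ', fun b => rfl, ?_⟩, fun x hx => ?_⟩
  · rw [← hred]
    refine AlgHom.ext fun b => congrArg σ.red (Subtype.ext ?_)
    show τ (algebraMap F L b) = ψ b
    rw [τ.commutes, hψ]
  · have hx0 : x ≠ 0 := fun e => by simp [e] at hx
    have h1 : x ∈ V' := (V'.valuation_le_one_iff x).mp hx.le
    have h2 : x⁻¹ ∈ V' := (V'.valuation_le_one_iff _).mp (by rw [map_inv₀, hx, inv_one])
    refine valuation_eq_one_of_mem h1 ?_ ((map_ne_zero (τ : L →+* L)).mpr hx0)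
    have h3 : τ x⁻¹ ∈ σ.V := h2
    rwa [map_inv₀] at h3

/-- An element of `F` which is a unit over `v` has order zero. -/
theorem OverPlace.ord_eq_zero {σ : Spz K L K} {v : Place K F} (h : OverPlace σ v) {N : F}
    (hN : σ.V.valuation (algebraMap F L N) = 1) : v.ord N = 0 := by
  obtain ⟨ψ, hψ, hred⟩ := h
  have hN0 : N ≠ 0 := fun e => by simp [e] at hN
  have key : ∀ M : F, M ≠ 0 → σ.V.valuation (algebraMap F L M) = 1 → 0 ≤ v.ord M := by
    intro M hM0 hM
    by_contra hlt
    push Not at hlt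
    have hi : M⁻¹ ∈ v.toValuationSubring :=
      (Curve.mem_iff_ord_nonneg v (inv_ne_zero hM0)).mpr (by rw [v.ord_inv]; omega)
    let b : valAlg v.toValuationSubring (place_algebraMap_mem (K := K) v) := ⟨M⁻¹, hi⟩
    have h0 : valueHom v (place_algebraMap_mem v) b = 0 :=
      (isValue_valueHom v _ b).eq_zero_iff.mpr
        (Curve.mem_ordGE_of_le (show (1 : ℤ) ≤ v.ord M⁻¹ by rw [v.ord_inv]; omega))
    have hmem : algebraMap F L M⁻¹ ∈ σ.V :=
      (σ.V.valuation_le_one_iff _).mp (by rw [map_inv₀, map_inv₀, hM, inv_one])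
    refine σ.red_inv hmem ?_ ((map_ne_zero _).mpr (inv_ne_zero hM0)) ?_
    · rw [map_inv₀, inv_inv]
      exact (σ.V.valuation_le_one_iff _).mp hM.le
    · rw [← hred] at h0
      rw [show (⟨algebraMap F L M⁻¹, hmem⟩ : σ.VA) = ψ b from Subtype.ext (hψ b).symm]
      exact h0
  have h1 := key N hN0 hN
  have h2 := key N⁻¹ (inv_ne_zero hN0) (by rw [map_inv₀, map_inv₀, hN, inv_one])
  rw [v.ord_inv] at h2
  omega

/-- If along every specialisation over every place `x` times a family of functions is a unit,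
the orders of the functions form a divisor of degree zero. -/
theorem degree_eq_zero_of_units [Algebra.IsAlgebraic F L] [Normal F L] {x : L} (hx0 : x ≠ 0)
    (E : Divisor K F) (R : Place K F → F) (hR0 : ∀ v, R v ≠ 0) (hR : ∀ v, v.ord (R v) = E v)
    (h : ∀ (v : Place K F) (σ : Spz K L K), OverPlace σ v →
      σ.V.valuation (x * algebraMap F L (R v)) = 1) :
    Divisor.degree E = 0 := by
  have halg : IsAlgebraic F x := Algebra.IsAlgebraic.isAlgebraic x
  set P := minpoly F x
  have hPm : P.Monic := minpoly.monic halg.isIntegral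
  have hd : 0 < P.natDegree := minpoly.natDegree_pos halg.isIntegral
  have ha0 : P.coeff 0 ≠ 0 := minpoly.coeff_zero_ne_zero halg.isIntegral hx0
  set d := P.natDegree
  have hunit : ∀ v : Place K F, v.ord (P.coeff 0 * R v ^ d) = 0 := by
    intro v
    obtain ⟨σ, hσ⟩ := exists_overPlace (L := L) v
    refine hσ.ord_eq_zero ?_
    have hroot : ∀ y ∈ (P.map (algebraMap F L)).roots,
        σ.V.valuation (y * algebraMap F L (R v)) = 1 := by
      intro y hy
      have hy' : Polynomial.aeval y P = 0 := by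
        have := (Polynomial.mem_roots'.mp hy).2
        rwa [Polynomial.IsRoot, Polynomial.eval_map, ← Polynomial.aeval_def] at this
      obtain ⟨τ, hτ⟩ := minpoly.exists_algEquiv_of_root halg hy'
      obtain ⟨σ', hσ', hval⟩ := hσ.comp τ.symm
      have := hval _ (h v σ' hσ')
      rwa [map_mul, τ.symm.commutes, ← hτ, AlgEquiv.symm_apply_apply] at this
    have hsplit : (P.map (algebraMap F L)).Splits := IsAlgClosed.splits _
    have hcard : Multiset.card (P.map (algebraMap F L)).roots = d := by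
      rw [← hsplit.natDegree_eq_card_roots, hPm.natDegree_map]
    have hc : algebraMap F L (P.coeff 0) =
        (-1) ^ d * (P.map (algebraMap F L)).roots.prod := by
      rw [← Polynomial.coeff_map, hsplit.coeff_zero_eq_prod_roots_of_monic (hPm.map _),
        hPm.natDegree_map]
    have hneg : σ.V.valuation (-1 : L) = 1 := by rw [Valuation.map_neg, map_one]
    rw [map_mul, map_pow, hc, mul_assoc, map_mul, map_pow, hneg, one_pow, one_mul, map_mul,
      map_pow, ← hcard, map_multiset_prod, ← Multiset.prod_replicate,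
      ← Multiset.map_const', ← Multiset.prod_map_mul]
    refine Multiset.prod_eq_one fun w hw => ?_
    obtain ⟨y, hy, rfl⟩ := Multiset.mem_map.mp hw
    rw [← map_mul]
    exact hroot y hy
  have hE : Curve.divOf (P.coeff 0) + (d : ℤ) • E = 0 := Finsupp.ext fun v => by
    have h1 := hunit v
    rw [v.ord_mul ha0 (pow_ne_zero _ (hR0 v)), Curve.ord_pow, hR] at h1
    simpa using h1
  have hdeg := congrArg Divisor.degree hE
  rw [map_add, Curve.degree_divOf, zero_add, map_zsmul, map_zero, smul_eq_zero] at hdeg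
  exact hdeg.resolve_left (by exact_mod_cast hd.ne')

end Conjugates

/-- The square of the height through a point of the fibre at a horizontal place. -/
theorem exists_constant_square (D : CartierDiv A) (p q r : A.Pt F) :
    ∃ a : A.Pt K,
      height K D (p + (q + r)) - height K D (p + q) - height K D (p + r) + height K D p =
        height K D (A.map (Algebra.ofId K F) a + (q + r))
          - height K D (A.map (Algebra.ofId K F) a + q)
          - height K D (A.map (Algebra.ofId K F) a + r)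
          + height K D (A.map (Algebra.ofId K F) a) := by
  let L := AlgebraicClosure F
  let ι : F →ₐ[K] L := IsScalarTower.toAlgHom K F L
  obtain ⟨v₀⟩ := (inferInstance : Nonempty (Place K F))
  let a : A.Pt K := A.map (valueHom v₀ (place_algebraMap_mem v₀))
    (A.extend v₀.toValuationSubring (place_algebraMap_mem v₀) p)
  refine ⟨a, ?_⟩
  obtain ⟨f, hf, hsq⟩ := exists_principal_square D p L (A.map ι q) (A.map ι r)
  -- the diagonal place
  have hWt : ∀ c : K, algebraMap K F c ∈ (⊤ : ValuationSubring F) :=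
    fun _ => ValuationSubring.mem_top _
  let φd : valAlg (⊤ : ValuationSubring F) hWt →ₐ[K] L := ι.comp (valAlg ⊤ hWt).val
  have : IsLocalHom φd.toRingHom := ⟨fun b hb => by
    have hb0 : (b : F) ≠ 0 := fun e => hb.ne_zero (by
      show ι (b : F) = 0
      rw [e, map_zero])
    exact .of_mul_eq_one ⟨(b : F)⁻¹, ValuationSubring.mem_top _⟩
      (Subtype.ext (mul_inv_cancel₀ hb0))⟩
  obtain ⟨ed, hed, hedv⟩ := exists_place_of_hom (k := L) ⊤ hWt φd
  -- the horizontal place
  let e₀ := (isConstantExtension_CF K L F).placeExt v₀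
  let φ₀ : valAlg v₀.toValuationSubring (place_algebraMap_mem (K := K) v₀) →ₐ[K] L :=
    (Algebra.ofId K L).comp (valueHom v₀ (place_algebraMap_mem v₀))
  have he₀v : ∀ b : valAlg v₀.toValuationSubring (place_algebraMap_mem (K := K) v₀), IsValue e₀ (iF K L F (b : F)) (φ₀ b) := fun b => by
    have h := isValue_valueHom v₀ (place_algebraMap_mem (K := K) v₀) b
    show iF K L F (b : F) - algebraMap L (CF K L F) (algebraMap K L _) ∈ _
    rw [← IsScalarTower.algebraMap_apply K L (CF K L F), ← AlgHom.commutes (iF K L F),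
      ← map_sub]
    rcases Curve.mem_ordGE.mp h with h0 | h1
    · erw [h0, map_zero]; exact zero_mem _
    · exact Curve.mem_ordGE_of_le
        (((isConstantExtension_CF K L F).ord_placeExt v₀ _).symm ▸ h1)
  have hQd : ∀ y : A.Pt F, placeValue (cfPt A L p (A.map ι y)) ed = A.map ι (p + y) := fun y => by
    rw [placeValue_cfPt_of_value p _ ed ⊤ hWt φd hedv, map_add]
    congr 1
    rw [← A.map_map, A.map_extend]
  have hQ0 : ∀ y : A.Pt F, placeValue (cfPt A L p (A.map ι y)) e₀ =
      A.map ι (A.map (Algebra.ofId K F) a + y) := fun y => by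
    rw [placeValue_cfPt_of_value p _ e₀ _ _ φ₀ he₀v, map_add, A.map_map, A.map_map,
      Subsingleton.elim (ι.comp (Algebra.ofId K F)) (Algebra.ofId K L)]
  obtain ⟨xd, hxd0, hxd⟩ := exists_value_square D p (A.map ι q) (A.map ι r) hf hsq ed
  obtain ⟨x0, hx00, hx0⟩ := exists_value_square D p (A.map ι q) (A.map ι r) hf hsq e₀
  let Rd : Place K F → F := fun v =>
    quot4 (eqnAt D (p + (q + r)) v) (eqnAt D (p + q) v) (eqnAt D (p + r) v) (eqnAt D p v)
  let b := A.map (Algebra.ofId K F) a
  let R0 : Place K F → F := fun v =>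
    quot4 (eqnAt D (b + (q + r)) v) (eqnAt D (b + q) v) (eqnAt D (b + r) v) (eqnAt D b v)
  have hRd : ∀ v, Rd v ≠ 0 := fun v =>
    quot4_ne_zero (eqnAt_ne_zero _ _ v) (eqnAt_ne_zero _ _ v) (eqnAt_ne_zero _ _ v)
      (eqnAt_ne_zero _ _ v)
  have hR0 : ∀ v, R0 v ≠ 0 := fun v =>
    quot4_ne_zero (eqnAt_ne_zero _ _ v) (eqnAt_ne_zero _ _ v) (eqnAt_ne_zero _ _ v)
      (eqnAt_ne_zero _ _ v)
  have hkey := degree_eq_zero_of_units (L := L) (div_ne_zero hxd0 hx00)
    ((pullDiv K D (p + (q + r)) - pullDiv K D (p + q) - pullDiv K D (p + r) + pullDiv K D p) -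
      (pullDiv K D (b + (q + r)) - pullDiv K D (b + q) - pullDiv K D (b + r) + pullDiv K D b))
    (fun v => Rd v / R0 v) (fun v => div_ne_zero (hRd v) (hR0 v)) (fun v => ?_) (fun v σ hσ => ?_)
  · simp only [map_sub, map_add] at hkey
    simp only [height]
    linarith
  · rw [Curve.ord_div v (hRd v) (hR0 v)]
    simp only [Rd, R0, quot4, Finsupp.sub_apply, Finsupp.add_apply, pullDiv_apply]
    have h : ∀ a b c d : F, a ≠ 0 → b ≠ 0 → c ≠ 0 → d ≠ 0 →
        v.ord (a * b⁻¹ * c⁻¹ * d) = v.ord a - v.ord b - v.ord c + v.ord d :=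
      fun a b c d ha hb hc hd => by
        rw [v.ord_mul (mul_ne_zero (mul_ne_zero ha (inv_ne_zero hb)) (inv_ne_zero hc)) hd,
          v.ord_mul (mul_ne_zero ha (inv_ne_zero hb)) (inv_ne_zero hc),
          v.ord_mul ha (inv_ne_zero hb), v.ord_inv, v.ord_inv]
        ring
    rw [h _ _ _ _ (eqnAt_ne_zero _ _ v) (eqnAt_ne_zero _ _ v) (eqnAt_ne_zero _ _ v)
      (eqnAt_ne_zero _ _ v), h _ _ _ _ (eqnAt_ne_zero _ _ v) (eqnAt_ne_zero _ _ v)
      (eqnAt_ne_zero _ _ v) (eqnAt_ne_zero _ _ v)]
  · obtain ⟨l, hl, hsc⟩ := exists_common_scalar D p (A.map ι q) (A.map ι r) hf hsq σ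
    obtain ⟨cd, -, hcd⟩ := σ.exists_specializes ed ι fun z => hedv ⟨z, ValuationSubring.mem_top _⟩
    have h1 := hsc cd ed xd hcd hxd0 hxd
    have h2 := hsc _ e₀ x0 (σ.specializes_placeExt v₀) hx00 hx0
    have hd0 : placeValue (cfPt A L p 0) ed = A.map ι p := by
      simpa using hQd 0
    have h00 : placeValue (cfPt A L p 0) e₀ = A.map ι b := by
      simpa using hQ0 0
    rw [valueEqn, valueEqn, valueEqn, valueEqn, ← map_add, hσ.valueEqn_map D (hQd _),
      hσ.valueEqn_map D (hQd _), hσ.valueEqn_map D (hQd _), hσ.valueEqn_map D hd0,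
      ← map_quot4] at h1
    rw [valueEqn, valueEqn, valueEqn, valueEqn, ← map_add, hσ.valueEqn_map D (hQ0 _),
      hσ.valueEqn_map D (hQ0 _), hσ.valueEqn_map D (hQ0 _), hσ.valueEqn_map D h00,
      ← map_quot4] at h2
    rw [map_div₀, div_mul_div_comm, map_div₀ σ.V.valuation, h1, h2,
      div_self ((map_ne_zero _).mpr hl)]

/-- **The third difference of the height vanishes.** -/
theorem hasZeroThirdDiff (D : CartierDiv A)
    (hconst : ∀ (p : A.Pt F) (a : A.Pt K),
      height K D (p + A.map (Algebra.ofId K F) a) = height K D p) :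
    HasZeroThirdDiff K F D := fun p q r => by
  obtain ⟨a, ha⟩ := exists_constant_square D p q r
  have h0 := hconst 0 a
  rw [zero_add] at h0
  rw [add_comm (A.map (Algebra.ofId K F) a) (q + r), add_comm (A.map (Algebra.ofId K F) a) q,
    add_comm (A.map (Algebra.ofId K F) a) r, hconst, hconst, hconst, h0,
    ← add_assoc] at ha
  linarith [height_zero (K := K) (F := F) D]

end FermatLib.AV.Tors
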