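import Fermat.Agent.AV.Tors.Height.System
import Fermat.Agent.AV.Tors.Height.Degree
import Fermat.Agent.AV.Tors.Alg.Specialization

/-!
# Points on the model: pullbacks as divisor systems, specialisation of places
-/

set_option autoImplicit false
set_option linter.unusedSectionVars false

noncomputable section

universe u

open AlgebraicCurve IsLocalRing
open scoped TensorProduct

namespace FermatLib.AV.Tors

variable {K : Type u} [Field K] {g : ℕ} {A : AVData K g}
  {L k : Type u} [Field L] [Algebra K L] [Field k] [Algebra K k]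
  {F : Type u} [Field F] [Algebra K F]

/-- A homomorphism on an embedded `K`-algebra extends to a specialisation of constants. -/
theorem exists_spz [IsAlgClosed k] {R : Type u} [CommRing R] [Algebra K R] (j : R →ₐ[K] L)
    (hj : Function.Injective j) (φ : R →ₐ[K] k) :
    ∃ (σ : Spz K L k) (ψ : R →ₐ[K] σ.VA), σ.VA.val.comp ψ = j ∧ σ.red.comp ψ = φ := by
  let e : R ≃ₐ[K] j.range := AlgEquiv.ofInjective j hj
  have he : ∀ r : R, e.symm ⟨j r, r, rfl⟩ = r := fun r =>
    e.symm_apply_eq.mpr (Subtype.ext rfl)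
  obtain ⟨V, hV, ψ, hψ, hker⟩ :=
    exists_specialization j.range.toSubring (φ.comp e.symm.toAlgHom).toRingHom
  have hψj : ∀ r : R, ψ ⟨j r, hV ⟨r, rfl⟩⟩ = φ r := fun r =>
    (hψ ⟨j r, r, rfl⟩).trans (congrArg φ (he r))
  have hK : ∀ c : K, algebraMap K L c ∈ V := fun c => hV ⟨algebraMap K R c, j.commutes c⟩
  let red : valAlg V hK →ₐ[K] k :=
    { toFun := ψ
      map_one' := ψ.map_one
      map_mul' := ψ.map_mul
      map_zero' := ψ.map_zero
      map_add' := ψ.map_add
      commutes' := fun c => by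
        have h1 : (⟨algebraMap K L c, hK c⟩ : V) =
            ⟨j (algebraMap K R c), hV ⟨_, rfl⟩⟩ := Subtype.ext (j.commutes c).symm
        show ψ ⟨algebraMap K L c, hK c⟩ = _
        rw [h1, hψj, AlgHom.commutes] }
  refine ⟨⟨V, hK, red, fun x => (RingHom.mem_ker (f := ψ) (r := x)).symm.trans
    (SetLike.ext_iff.mp hker x)⟩, j.codRestrict (valAlg V hK) fun r => hV ⟨r, rfl⟩,
    AlgHom.ext fun _ => rfl, AlgHom.ext fun r => hψj r⟩

namespace Spz

variable (σ : Spz K L k)

/-- The specialisation of a point. -/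
def spzPt (y : A.Pt L) : A.Pt k := A.map σ.red (A.extend σ.V σ.hV y)

theorem spzPt_add (y z : A.Pt L) : σ.spzPt (y + z) = σ.spzPt y + σ.spzPt z := by
  rw [spzPt, A.extend_add, map_add]; rfl

theorem spzPt_map {R : Type u} [CommRing R] [Algebra K R] (ψ : R →ₐ[K] σ.VA) (q : A.Pt R) :
    σ.spzPt (A.map (σ.VA.val.comp ψ) q) = A.map (σ.red.comp ψ) q := by
  rw [spzPt, ← A.map_map, A.extend_map, A.map_map]

theorem spzPt_zero : σ.spzPt (0 : A.Pt L) = 0 :=
  add_left_cancel (a := σ.spzPt (0 : A.Pt L)) (by rw [← spzPt_add, add_zero, add_zero])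

end Spz

section Points

variable [IsAlgClosed K]

variable (A) in
/-- The point `P + y` on the constant extension. -/
def cfPt (k : Type u) [Field k] [Algebra K k] (P : A.Pt F) (y : A.Pt k) : A.Pt (CF K k F) :=
  A.map (iF K k F) P + A.map (iC K k F) y

theorem cfPt_add_const (P : A.Pt F) (a : A.Pt K) :
    cfPt A k P (A.map (Algebra.ofId K k) a) =
      A.map (iF K k F) (P + A.map (Algebra.ofId K F) a) := by
  rw [cfPt, map_add, A.map_map, A.map_map,
    Subsingleton.elim ((iC K k F).comp (Algebra.ofId K k)) ((iF K k F).comp (Algebra.ofId K F))]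

variable [Curve.IsFunctionField K F] [IsAlgClosed k]

/-- The functions of `F` regular under a place, in the valuation ring of the place. -/
def underHom (c : Place k (CF K k F)) :
    placeBase c →ₐ[K] valAlg c.toValuationSubring (place_algebraMap_mem (K := K) c) :=
  ((iF K k F).comp (placeBase c).val).codRestrict _ fun b => b.2

instance isLocalHom_underHom (c : Place k (CF K k F)) : IsLocalHom (underHom c).toRingHom := by
  refine ⟨fun b hb => ?_⟩
  obtain ⟨⟨y, hy⟩, hby⟩ := isUnit_iff_exists_inv.mp hb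
  have h1 : iF K k F (b : F) * y = 1 := congrArg Subtype.val hby
  have hy' : y = iF K k F (b : F)⁻¹ := by
    rw [map_inv₀]; exact (eq_inv_of_mul_eq_one_right h1)
  have hmem : (b : F)⁻¹ ∈ underRing K k F c := by
    rw [ValuationSubring.mem_comap]
    show iF K k F (b : F)⁻¹ ∈ c.toValuationSubring
    rw [← hy']
    exact hy
  refine .of_mul_eq_one (⟨(b : F)⁻¹, hmem⟩ : placeBase c) (Subtype.ext (mul_inv_cancel₀ ?_))
  intro h0
  rw [h0, map_zero, zero_mul] at h1
  exact zero_ne_one h1

theorem extend_map_iF (c : Place k (CF K k F)) (P : A.Pt F) :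
    A.extend c.toValuationSubring (place_algebraMap_mem c) (A.map (iF K k F) P) =
      A.map (underHom c) (A.extend (underRing K k F c) (algebraMap_mem_underRing K k F c) P) := by
  have h : A.map (iF K k F) P = A.map (valAlg c.toValuationSubring (place_algebraMap_mem c)).val
      (A.map (underHom c)
        (A.extend (underRing K k F c) (algebraMap_mem_underRing K k F c) P)) := by
    conv_lhs => rw [← A.map_extend (underRing K k F c) (algebraMap_mem_underRing K k F c) P]
    rw [A.map_map, A.map_map]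
    rfl
  rw [h, A.extend_map]

theorem placeCentre_map_iF (c : Place k (CF K k F)) (P : A.Pt F) :
    placeCentre (A.map (iF K k F) P) c =
      A.centreAt (underRing K k F c) (algebraMap_mem_underRing K k F c) P := by
  rw [placeCentre, AVData.centreAt, extend_map_iF, A.centre_map]
  rfl

theorem centre_map_iF (P : A.Pt F) : A.centre (A.map (iF K k F) P) = A.centre P := by
  have : IsLocalHom (iF K k F).toRingHom :=
    ⟨fun b hb => (show b ≠ 0 from fun h => hb.ne_zero (by simp [h])).isUnit⟩
  exact A.centre_map _ _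

/-- Pullbacks commute with extensions of the constants. -/
theorem pullDiv_map_iF (D : CartierDiv A) (P : A.Pt F) :
    pullDiv k D (A.map (iF K k F) P) =
      (isConstantExtension_CF K k F).divisorExt (pullDiv K D P) := by
  ext c
  rw [pullDiv_apply, eqnAt, centre_map_iF, placeCentre_map_iF]
  have hev : ∀ x : A.X, A.centre P ⤳ x →
      A.evalAt (A.map (iF K k F) P) (D.eqn x / D.eqn (A.centre P)) =
        iF K k F (A.evalAt P (D.eqn x / D.eqn (A.centre P))) := fun x hx =>
    A.evalAt_map _ P (D.isUnitAt_of_specializes hx).2.1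
  rw [hev _ (A.centre_specializes_centreAt _ _ P)]
  by_cases hc : underRing K k F c = ⊤
  · rw [ord_iF_eq_zero_of_underRing hc, divisorExt_eq_zero_of_underRing]
    exact fun v _ h => v.ne_top' (h.symm.trans hc)
  · obtain ⟨v, rfl⟩ := exists_place_underRing hc
    rw [Curve.IsConstantExtension.divisorExt_apply_placeExt, pullDiv_apply, eqnAt, placeCentre]
    simp only [underRing_placeExt]
    exact (isConstantExtension_CF K k F).ord_placeExt v _

theorem height_cfPt_const (D : CartierDiv A) (P : A.Pt F) (a : A.Pt K) :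
    height k D (cfPt A k P (A.map (Algebra.ofId K k) a)) =
      height K D (P + A.map (Algebra.ofId K F) a) := by
  rw [height, cfPt_add_const, pullDiv_map_iF,
    Curve.IsConstantExtension.degree_divisorExt]
  rfl

/-- The value of a point at a place. -/
def placeValue (p : A.Pt (CF K k F)) (v : Place k (CF K k F)) : A.Pt k :=
  A.map (valueHom v (place_algebraMap_mem v))
    (A.extend v.toValuationSubring (place_algebraMap_mem v) p)

theorem placeValue_add (p q : A.Pt (CF K k F)) (v : Place k (CF K k F)) :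
    placeValue (p + q) v = placeValue p v + placeValue q v := by
  rw [placeValue, A.extend_add, map_add]; rfl

theorem centre_placeValue (p : A.Pt (CF K k F)) (v : Place k (CF K k F)) :
    A.centre (placeValue p v) = placeCentre p v := by
  have := isLocalHom_valueHom v (place_algebraMap_mem (K := K) v)
  exact A.centre_map _ _

theorem isValue_evalAt (p : A.Pt (CF K k F)) (v : Place k (CF K k F)) {z : A.FA}
    (hz : z ∈ A.localRing (placeCentre p v)) :
    IsValue v (A.evalAt p z) (A.evalAt (placeValue p v) z) := by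
  rw [A.evalAt_eq_evalAt_extend _ _ p hz, placeValue, A.evalAt_map _ _ hz]
  exact isValue_valueHom v _ _

end Points

section Systems

variable [IsAlgClosed K] [Curve.IsFunctionField K F] [IsAlgClosed L] [IsAlgClosed k]
  (σ : Spz K L k)

theorem IsNear.wL_cW_mem {c : Place k (CF K k F)} {W : ValuationSubring (CF K L F)}
    (h : σ.IsNear c W) (r : σ.Rc (placeBase c) c (iF_mem_of_placeBase c)) :
    σ.wL F (σ.cW (placeBase c) c (iF_mem_of_placeBase c) r) ∈ W := by
  obtain ⟨⟨a, b⟩, hab⟩ := IsLocalization.surj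
    (RingHom.ker (σ.resC (placeBase c) c (iF_mem_of_placeBase c)).toRingHom).primeCompl r
  have h1 := congrArg (fun r => σ.wL F (σ.cW (placeBase c) c (iF_mem_of_placeBase c) r)) hab
  simp only [map_mul, Spz.wL_cW_algebraMap] at h1
  have hb := σ.toL_ne_zero_of_toK F (σ.toK_ne_zero_of_resC _ c _ (locAt_primeCompl b))
  rw [← eq_mul_inv_iff_mul_eq₀ hb] at h1
  rw [h1]
  exact mul_mem (h.1 _ (σ.toL_inclB_mem _ a)) (h.2 _ (locAt_primeCompl b))

/-- The constants in the local ring of the special fibre. -/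
def vaW (F : Type u) [Field F] [Algebra K F] : σ.VA →ₐ[K] σ.Rw F :=
  (IsScalarTower.toAlgHom K (σ.VA ⊗[K] F) (σ.Rw F)).comp Algebra.TensorProduct.includeLeft

theorem wL_comp_vaW : (σ.wL F).comp (vaW σ F) = (iC K L F).comp σ.VA.val := by
  refine AlgHom.ext fun a => (σ.wL_algebraMap F (a ⊗ₜ[K] (1 : F))).trans ?_
  show algebraMap (L ⊗[K] F) (CF K L F) (σ.incl F (a ⊗ₜ[K] (1 : F))) = _
  rw [Spz.incl, Algebra.TensorProduct.map_tmul, algebraMap_tmul]
  simp

theorem wK_comp_vaW : (σ.wK F).comp (vaW σ F) = (iC K k F).comp σ.red := by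
  refine AlgHom.ext fun a => (σ.wK_algebraMap F (a ⊗ₜ[K] (1 : F))).trans ?_
  show algebraMap (k ⊗[K] F) (CF K k F) (σ.redT F (a ⊗ₜ[K] (1 : F))) = _
  rw [Spz.redT, Algebra.TensorProduct.map_tmul, algebraMap_tmul]
  simp

/-- The point `P + y` with values in the local ring of the special fibre. -/
def modelPt (P : A.Pt F) (y : A.Pt L) : A.Pt (σ.Rw F) :=
  A.map (σ.iFw F) P + A.map (vaW σ F) (A.extend σ.V σ.hV y)

theorem map_wL_modelPt (P : A.Pt F) (y : A.Pt L) :
    A.map (σ.wL F) (modelPt σ P y) = cfPt A L P y := by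
  rw [modelPt, map_add, A.map_map, A.map_map, wL_comp_vaW,
    show (σ.wL F).comp (σ.iFw F) = iF K L F from AlgHom.ext σ.wL_iFw, ← A.map_map, A.map_extend]
  rfl

theorem map_wK_modelPt (P : A.Pt F) (y : A.Pt L) :
    A.map (σ.wK F) (modelPt σ P y) = cfPt A k P (σ.spzPt y) := by
  rw [modelPt, map_add, A.map_map, A.map_map, wK_comp_vaW,
    show (σ.wK F).comp (σ.iFw F) = iF K k F from AlgHom.ext σ.wK_iFw, ← A.map_map]
  rfl

/-- The functions of `F` regular at `c` in the local ring at `c`. -/
def baseC (c : Place k (CF K k F)) :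
    placeBase c →ₐ[K] σ.Rc (placeBase c) c (iF_mem_of_placeBase c) :=
  (IsScalarTower.toAlgHom K (σ.VA ⊗[K] placeBase c) _).comp Algebra.TensorProduct.includeRight

/-- The constants in the local ring at `c`. -/
def vaC (c : Place k (CF K k F)) :
    σ.VA →ₐ[K] σ.Rc (placeBase c) c (iF_mem_of_placeBase c) :=
  (IsScalarTower.toAlgHom K (σ.VA ⊗[K] placeBase c) _).comp Algebra.TensorProduct.includeLeft

theorem cW_comp_baseC (c : Place k (CF K k F)) :
    (σ.cW (placeBase c) c (iF_mem_of_placeBase c)).comp (baseC σ c) =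
      (σ.iFw F).comp (placeBase c).val := by
  refine AlgHom.ext fun b => (σ.cW_algebraMap (placeBase c) c _ ((1 : σ.VA) ⊗ₜ[K] b)).trans ?_
  rw [Spz.inclB, Algebra.TensorProduct.map_tmul]
  rfl

theorem cW_comp_vaC (c : Place k (CF K k F)) :
    (σ.cW (placeBase c) c (iF_mem_of_placeBase c)).comp (vaC σ c) = vaW σ F := by
  refine AlgHom.ext fun a =>
    (σ.cW_algebraMap (placeBase c) c _ (a ⊗ₜ[K] (1 : placeBase c))).trans ?_
  rw [Spz.inclB, Algebra.TensorProduct.map_tmul]
  rfl

/-- The point `P + y` with values in the local ring at `c`. -/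
def localPt (P : A.Pt F) (y : A.Pt L) (c : Place k (CF K k F)) :
    A.Pt (σ.Rc (placeBase c) c (iF_mem_of_placeBase c)) :=
  A.map (baseC σ c) (A.extend (underRing K k F c) (algebraMap_mem_underRing K k F c) P) +
    A.map (vaC σ c) (A.extend σ.V σ.hV y)

theorem map_cW_localPt (P : A.Pt F) (y : A.Pt L) (c : Place k (CF K k F)) :
    A.map (σ.cW (placeBase c) c (iF_mem_of_placeBase c)) (localPt σ P y c) = modelPt σ P y := by
  rw [localPt, map_add, A.map_map, A.map_map, cW_comp_baseC, cW_comp_vaC, ← A.map_map,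
    A.map_extend]
  rfl

theorem centre_modelPt_specializes (P : A.Pt F) (y : A.Pt L) (c : Place k (CF K k F)) :
    A.centre (modelPt σ P y) ⤳ A.centre (localPt σ P y c) := by
  rw [← map_cW_localPt σ P y c]
  exact A.centre_map_specializes _ _

theorem centre_cfPt_specializes (P : A.Pt F) (y : A.Pt L) :
    A.centre (cfPt A L P y) ⤳ A.centre (modelPt σ P y) := by
  rw [← map_wL_modelPt σ P y]
  exact A.centre_map_specializes _ _

theorem centre_cfPt_spzPt (P : A.Pt F) (y : A.Pt L) :
    A.centre (cfPt A k P (σ.spzPt y)) = A.centre (modelPt σ P y) := by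
  have : IsLocalHom (σ.wK F).toRingHom :=
    ⟨fun z hz => isUnit_of_locRes_ne_zero hz.ne_zero⟩
  rw [← map_wK_modelPt σ P y]
  exact A.centre_map _ _

theorem placeCentre_cfPt_spzPt (P : A.Pt F) (y : A.Pt L) (c : Place k (CF K k F)) :
    placeCentre (cfPt A k P (σ.spzPt y)) c = A.centre (localPt σ P y c) := by
  have h : cfPt A k P (σ.spzPt y) =
      A.map (valAlg c.toValuationSubring (place_algebraMap_mem c)).val
        (A.map (σ.cC (placeBase c) c (iF_mem_of_placeBase c)) (localPt σ P y c)) := by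
    rw [← map_wK_modelPt σ P y, ← map_cW_localPt σ P y c, A.map_map, A.map_map]
    congr 2
    exact AlgHom.ext fun r => σ.wK_cW _ c _ r
  have := σ.isLocalHom_cC (placeBase c) c (iF_mem_of_placeBase c)
  rw [placeCentre, AVData.centreAt, h, A.extend_map]
  exact A.centre_map _ _

theorem placeCentre_cfPt_specializes (P : A.Pt F) (y : A.Pt L) {c : Place k (CF K k F)}
    {v : Place L (CF K L F)} (h : σ.IsNear c v.toValuationSubring) :
    placeCentre (cfPt A L P y) v ⤳ A.centre (localPt σ P y c) := by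
  let ν : σ.Rc (placeBase c) c (iF_mem_of_placeBase c) →ₐ[K]
      valAlg v.toValuationSubring (place_algebraMap_mem v) :=
    ((σ.wL F).comp (σ.cW (placeBase c) c (iF_mem_of_placeBase c))).codRestrict _
      fun r => IsNear.wL_cW_mem σ h r
  have hp : cfPt A L P y = A.map (valAlg v.toValuationSubring (place_algebraMap_mem v)).val
      (A.map ν (localPt σ P y c)) := by
    rw [← map_wL_modelPt σ P y, ← map_cW_localPt σ P y c, A.map_map, A.map_map]
    rfl
  rw [placeCentre, AVData.centreAt, hp, A.extend_map]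
  exact A.centre_map_specializes _ _

theorem isUnitAt_modelEqn (D : CartierDiv A) (P : A.Pt F) (y : A.Pt L)
    (c : Place k (CF K k F)) :
    A.IsUnitAt (A.centre (modelPt σ P y))
      (D.eqn (A.centre (localPt σ P y c)) / D.eqn (A.centre (modelPt σ P y))) :=
  D.isUnitAt_of_specializes (centre_modelPt_specializes σ P y c)

/-- The pullback of `D` along `P + y`, with its specialisation. -/
def DivSystem.ofPoint (D : CartierDiv A) (P : A.Pt F) (y : A.Pt L) : DivSystem σ F where
  divL := pullDiv L D (cfPt A L P y)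
  divK := pullDiv k D (cfPt A k P (σ.spzPt y))
  mult := A.evalAt (cfPt A L P y)
    (D.eqn (A.centre (modelPt σ P y)) / D.eqn (A.centre (cfPt A L P y)))
  mult_ne :=
    (D.isUnitAt_of_specializes (centre_cfPt_specializes σ P y)).isUnit_evalAt.ne_zero
  eqn c := (isUnitAt_modelEqn σ D P y c).isUnit_evalAt.unit
  ord_wK c := by
    rw [IsUnit.unit_spec, ← A.evalAt_map _ _ (isUnitAt_modelEqn σ D P y c).2.1, map_wK_modelPt,
      pullDiv_apply, eqnAt, placeCentre_cfPt_spzPt, centre_cfPt_spzPt]
  ord_wL c v hv := by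
    have h1 := isUnitAt_modelEqn σ D P y c
    rw [IsUnit.unit_spec, ← A.evalAt_map _ _ h1.2.1, map_wL_modelPt,
      ← A.evalAt_mul (D.isUnitAt_of_specializes (centre_cfPt_specializes σ P y)).2.1
        (h1.mono (centre_cfPt_specializes σ P y)).2.1,
      mul_comm, div_mul_div_cancel₀ (D.eqn_ne_zero _), pullDiv_apply]
    exact ord_evalAt_eq_ord_eqnAt D _ v
      (D.isUnitAt_of_specializes (placeCentre_cfPt_specializes σ P y hv))

@[simp]
theorem DivSystem.ofPoint_divL (D : CartierDiv A) (P : A.Pt F) (y : A.Pt L) :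
    (DivSystem.ofPoint σ D P y).divL = pullDiv L D (cfPt A L P y) := rfl

@[simp]
theorem DivSystem.ofPoint_divK (D : CartierDiv A) (P : A.Pt F) (y : A.Pt L) :
    (DivSystem.ofPoint σ D P y).divK = pullDiv k D (cfPt A k P (σ.spzPt y)) := rfl

/-- The equations of the pullback. -/
theorem DivSystem.ofPoint_mult_eqn (D : CartierDiv A) (P : A.Pt F) (y : A.Pt L)
    (c : Place k (CF K k F)) :
    (DivSystem.ofPoint σ D P y).mult * σ.wL F ((DivSystem.ofPoint σ D P y).eqn c) =
      A.evalAt (cfPt A L P y)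
        (D.eqn (placeCentre (cfPt A k P (σ.spzPt y)) c) / D.eqn (A.centre (cfPt A L P y))) := by
  have h1 := isUnitAt_modelEqn σ D P y c
  show A.evalAt (cfPt A L P y) _ * σ.wL F (h1.isUnit_evalAt.unit : σ.Rw F) = _
  rw [IsUnit.unit_spec, ← A.evalAt_map _ _ h1.2.1, map_wL_modelPt,
    ← A.evalAt_mul (D.isUnitAt_of_specializes (centre_cfPt_specializes σ P y)).2.1
      (h1.mono (centre_cfPt_specializes σ P y)).2.1,
    mul_comm, div_mul_div_cancel₀ (D.eqn_ne_zero _), placeCentre_cfPt_spzPt]

/-- The height of `P + y` does not change under specialisation of `y`. -/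
theorem height_cfPt_spzPt (D : CartierDiv A) (P : A.Pt F) (y : A.Pt L) :
    height L D (cfPt A L P y) = height k D (cfPt A k P (σ.spzPt y)) := by
  simpa [height] using (DivSystem.ofPoint σ D P y).degree_divL_eq

/-- The place `c` of the special fibre is the specialisation of the place `e`: the functions of
`F` regular at `c` have values at `e` reducing to their values at `c`. -/
def Spz.Specializes (c : Place k (CF K k F)) (e : Place L (CF K L F)) : Prop :=
  ∃ χ : placeBase c →ₐ[K] σ.VA,
    (∀ b : placeBase c, IsValue e (iF K L F (b : F)) (χ b : L)) ∧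
      ∀ b : placeBase c, IsValue c (iF K k F (b : F)) (σ.red (χ b))

variable {σ}

theorem exists_value_tensor {c : Place k (CF K k F)} {e : Place L (CF K L F)}
    {χ : placeBase c →ₐ[K] σ.VA}
    (he : ∀ b : placeBase c, IsValue e (iF K L F (b : F)) (χ b : L))
    (hc : ∀ b : placeBase c, IsValue c (iF K k F (b : F)) (σ.red (χ b)))
    (t : σ.VA ⊗[K] placeBase c) :
    ∃ x : σ.VA, IsValue e (σ.toL F (σ.inclB (placeBase c) t)) (x : L) ∧
      IsValue c (σ.toK F (σ.inclB (placeBase c) t)) (σ.red x) := by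
  induction t using TensorProduct.induction_on with
  | zero =>
    refine ⟨0, ?_, ?_⟩
    · simpa using isValue_algebraMap e (0 : L)
    · simpa using isValue_algebraMap c (0 : k)
  | tmul a b =>
    refine ⟨a * χ b, ?_, ?_⟩
    · rw [show σ.toL F (σ.inclB (placeBase c) (a ⊗ₜ[K] b)) =
        algebraMap L _ (a : L) * iF K L F (b : F) from algebraMap_tmul K L F _ _]
      exact (isValue_algebraMap e _).mul (he b)
    · rw [show σ.toK F (σ.inclB (placeBase c) (a ⊗ₜ[K] b)) =
        algebraMap k _ (σ.red a) * iF K k F (b : F) from algebraMap_tmul K k F _ _, map_mul]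
      exact (isValue_algebraMap c _).mul (hc b)
  | add x y hx hy =>
    obtain ⟨x', h1, h2⟩ := hx
    obtain ⟨y', h1', h2'⟩ := hy
    refine ⟨x' + y', ?_, ?_⟩
    · rw [map_add, map_add]; exact h1.add h1'
    · rw [map_add, map_add, map_add]; exact h2.add h2'

theorem isUnit_value_of_resC {c : Place k (CF K k F)} {x : σ.VA} {t : σ.VA ⊗[K] placeBase c}
    (ht : σ.resC (placeBase c) c (iF_mem_of_placeBase c) t ≠ 0)
    (hc : IsValue c (σ.toK F (σ.inclB (placeBase c) t)) (σ.red x)) :
    IsUnit x ∧ σ.red x ≠ 0 := by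
  have hne : σ.red x ≠ 0 := fun h0 => by
    have h1 := Curve.le_ord_of_mem (hc.eq_zero_iff.mp h0) (σ.toK_ne_zero_of_resC _ c _ ht)
    have h2 : c.ord (σ.toK F (σ.inclB (placeBase c) t)) = 0 :=
      Curve.ord_eq_zero_of_isUnit c (u := ⟨σ.toK F (σ.inclB (placeBase c) t),
        (σ.toC (placeBase c) c (iF_mem_of_placeBase c) t).2⟩)
        (σ.isUnit_toC _ c _ ht)
    omega
  exact ⟨IsLocalRing.notMem_maximalIdeal.mp fun h => hne ((σ.ker_red x).mpr h), hne⟩

theorem Spz.Specializes.isNear {c : Place k (CF K k F)} {e : Place L (CF K L F)}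
    (h : σ.Specializes c e) : σ.IsNear c e.toValuationSubring := by
  obtain ⟨χ, he, hc⟩ := h
  refine ⟨?_, fun b hb => ?_⟩
  · rintro _ ⟨s, rfl⟩
    induction s using TensorProduct.induction_on with
    | zero => rw [map_zero]; exact zero_mem _
    | tmul l b =>
      show algebraMap (L ⊗[K] F) (CF K L F)
        (Algebra.TensorProduct.map (AlgHom.id K L) (placeBase c).val (l ⊗ₜ[K] b)) ∈ _
      rw [Algebra.TensorProduct.map_tmul, algebraMap_tmul]
      exact ((isValue_algebraMap e _).mul (he b)).mem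
    | add x y hx hy => rw [map_add]; exact add_mem hx hy
  · obtain ⟨x, hxe, hxc⟩ := exists_value_tensor he hc b
    have hx := (isUnit_value_of_resC hb hxc).1
    exact (hxe.inv fun h0 => hx.ne_zero (Subtype.ext h0)).mem

theorem Spz.Specializes.exists_value {c : Place k (CF K k F)} {e : Place L (CF K L F)}
    (h : σ.Specializes c e) (r : σ.Rc (placeBase c) c (iF_mem_of_placeBase c)) :
    ∃ x : σ.VA, IsValue e (σ.wL F (σ.cW _ c (iF_mem_of_placeBase c) r)) (x : L) ∧
      IsValue c (σ.cC _ c (iF_mem_of_placeBase c) r : CF K k F) (σ.red x) := by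
  obtain ⟨χ, he, hc⟩ := h
  obtain ⟨⟨a, b⟩, hab⟩ := IsLocalization.surj
    (RingHom.ker (σ.resC (placeBase c) c (iF_mem_of_placeBase c)).toRingHom).primeCompl r
  obtain ⟨xa, hae, hac⟩ := exists_value_tensor he hc a
  obtain ⟨xb, hbe, hbc⟩ := exists_value_tensor he hc (b : σ.VA ⊗[K] placeBase c)
  obtain ⟨⟨u, rfl⟩, hu⟩ := isUnit_value_of_resC (locAt_primeCompl b) hbc
  have hb0 := σ.toK_ne_zero_of_resC _ c _ (locAt_primeCompl b)
  refine ⟨xa * ↑u⁻¹, ?_, ?_⟩
  · have h1 := congrArg (fun r => σ.wL F (σ.cW (placeBase c) c (iF_mem_of_placeBase c) r)) hab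
    simp only [map_mul, Spz.wL_cW_algebraMap] at h1
    rw [← eq_mul_inv_iff_mul_eq₀ (σ.toL_ne_zero_of_toK F hb0)] at h1
    rw [h1, Subalgebra.coe_mul,
      show ((↑u⁻¹ : σ.VA) : L) = ((↑u : σ.VA) : L)⁻¹ from map_units_inv σ.VA.val u]
    exact hae.mul (hbe.inv fun h0 => u.ne_zero (Subtype.ext h0))
  · have h1 := congrArg (fun r => ((σ.cC (placeBase c) c (iF_mem_of_placeBase c) r :
      cAlg c) : CF K k F)) hab
    simp only [map_mul, Spz.cC_algebraMap, Subalgebra.coe_mul] at h1
    change _ * σ.toK F (σ.inclB (placeBase c) b) = σ.toK F (σ.inclB (placeBase c) a) at h1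
    rw [← eq_mul_inv_iff_mul_eq₀ hb0] at h1
    rw [h1, map_mul, map_units_inv σ.red u]
    exact hac.mul (hbc.inv hu)

theorem isValue_iF {k' : Type u} [Field k'] [Algebra K k'] [IsAlgClosed k'] (v : Place K F)
    {f : F} {x : K} (h : IsValue v f x) :
    IsValue ((isConstantExtension_CF K k' F).placeExt v) (iF K k' F f) (algebraMap K k' x) := by
  rw [IsValue, ← IsScalarTower.algebraMap_apply, ← (iF K k' F).commutes x, ← map_sub,
    Curve.mem_ordGE]
  rcases Curve.mem_ordGE.mp h with h0 | h1
  · exact Or.inl (by rw [h0, map_zero])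
  · exact Or.inr (h1.trans_eq ((isConstantExtension_CF K k' F).ord_placeExt v _).symm)

variable (σ) in
/-- Extensions of places of `F` specialise to each other. -/
theorem Spz.specializes_placeExt (v : Place K F) :
    σ.Specializes ((isConstantExtension_CF K k F).placeExt v)
      ((isConstantExtension_CF K L F).placeExt v) := by
  have hle : placeBase ((isConstantExtension_CF K k F).placeExt v) ≤
      valAlg v.toValuationSubring (place_algebraMap_mem (K := K) v) := fun x hx =>
    (underRing_placeExt K k F v).le hx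
  refine ⟨(Algebra.ofId K σ.VA).comp ((valueHom v _).comp (Subalgebra.inclusion hle)),
    fun b => ?_, fun b => ?_⟩
  · exact isValue_iF v (isValue_valueHom v _ (Subalgebra.inclusion hle b))
  · rw [AlgHom.comp_apply, Algebra.ofId_apply, AlgHom.commutes]
    exact isValue_iF v (isValue_valueHom v _ (Subalgebra.inclusion hle b))

variable (σ) in
/-- A place given by an embedding of `F` in the constants specialises to a place over the
induced valuation ring of `F`. -/
theorem Spz.exists_specializes (e : Place L (CF K L F)) (χ : F →ₐ[K] L)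
    (he : ∀ f, IsValue e (iF K L F f) (χ f)) :
    ∃ c : Place k (CF K k F),
      underRing K k F c = σ.V.comap χ.toRingHom ∧ σ.Specializes c e := by
  have hW : ∀ a : K, algebraMap K F a ∈ σ.V.comap χ.toRingHom := fun a => by
    rw [ValuationSubring.mem_comap]
    show χ (algebraMap K F a) ∈ σ.V
    rw [AlgHom.commutes]
    exact σ.hV a
  let χc : valAlg (σ.V.comap χ.toRingHom) hW →ₐ[K] σ.VA :=
    (χ.comp (valAlg (σ.V.comap χ.toRingHom) hW).val).codRestrict σ.VA fun b => b.2
  have hloc : IsLocalHom (σ.red.comp χc).toRingHom := by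
    refine ⟨fun b hb => ?_⟩
    have hx : IsUnit (χc b) := IsLocalRing.notMem_maximalIdeal.mp
      fun h => hb.ne_zero ((σ.ker_red _).mpr h)
    obtain ⟨⟨y, hy⟩, hby⟩ := isUnit_iff_exists_inv.mp hx
    have h1 : χ (b : F) * y = 1 := congrArg Subtype.val hby
    have hmem : (b : F)⁻¹ ∈ σ.V.comap χ.toRingHom := by
      rw [ValuationSubring.mem_comap]
      show χ (b : F)⁻¹ ∈ σ.V
      rw [map_inv₀, ← eq_inv_of_mul_eq_one_right h1]
      exact hy
    refine .of_mul_eq_one (⟨(b : F)⁻¹, hmem⟩ : valAlg (σ.V.comap χ.toRingHom) hW)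
      (Subtype.ext (mul_inv_cancel₀ ?_))
    intro h0
    rw [h0, map_zero, zero_mul] at h1
    exact zero_ne_one h1
  obtain ⟨c, hc, hval⟩ := exists_place_of_hom (σ.V.comap χ.toRingHom) hW (σ.red.comp χc)
  have hle : placeBase c ≤ valAlg (σ.V.comap χ.toRingHom) hW := fun x hx => hc.le hx
  exact ⟨c, hc, χc.comp (Subalgebra.inclusion hle), fun b => he b,
    fun b => hval (Subalgebra.inclusion hle b)⟩

/-- The places without a place of `F` below are the embeddings of `F` in the constants. -/
theorem exists_hom_of_underRing {e : Place L (CF K L F)} (he : underRing K L F e = ⊤) :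
    ∃ χ : F →ₐ[K] L, ∀ f, IsValue e (iF K L F f) (χ f) := by
  have hmem : ∀ f : F, iF K L F f ∈ valAlg e.toValuationSubring (place_algebraMap_mem (K := K) e) :=
    fun f => he.ge (ValuationSubring.mem_top f)
  let j : F →ₐ[K] valAlg e.toValuationSubring (place_algebraMap_mem (K := K) e) :=
    (iF K L F).codRestrict _ hmem
  refine ⟨(valueHom e (place_algebraMap_mem (K := K) e)).comp j, fun f => ?_⟩
  have h1 : IsValue e ((j f : valAlg e.toValuationSubring (place_algebraMap_mem (K := K) e)) :
      CF K L F) (valueHom e (place_algebraMap_mem (K := K) e) (j f)) :=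
    isValue_valueHom e _ (j f)
  exact h1

/-- An effective divisor in the class of the generic divisor specialises to one in the class of
the special divisor, positive at specialisations of points where it is positive. -/
theorem DivSystem.exists_specialization_effective (S : DivSystem σ F) {f : CF K L F} (hf : f ≠ 0)
    (h : ∀ v : Place L (CF K L F), 0 ≤ v.ord f + S.divL v) :
    ∃ gk : CF K k F, gk ≠ 0 ∧ (∀ c, 0 ≤ c.ord gk + S.divK c) ∧
      ∀ (c : Place k (CF K k F)) (e : Place L (CF K L F)), σ.Specializes c e →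
        0 < e.ord f + S.divL e → 0 < c.ord gk + S.divK c := by
  obtain ⟨l, z, hl, hz0, hz⟩ := σ.exists_scale F (mul_ne_zero hf S.mult_ne)
  refine ⟨σ.wK F z, hz0, fun c => ?_, fun c e hce hpos => ?_⟩
  · obtain ⟨r, hr⟩ := S.exists_cW hf hl hz (c := c) fun v _ => h v
    exact (S.nonneg_of_cW hz0 hr).1
  · obtain ⟨r, hr⟩ := S.exists_cW hf hl hz (c := c) fun v _ => h v
    obtain ⟨x, hxe, hxc⟩ := hce.exists_value r
    rw [← (S.nonneg_of_cW hz0 hr).2]
    have hl' : algebraMap L (CF K L F) l ≠ 0 := (map_ne_zero _).mpr hl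
    have he : f * (S.mult * σ.wL F (S.eqn c)) =
        algebraMap L _ l * σ.wL F (z * S.eqn c) := by
      rw [map_mul, ← mul_assoc, hz, mul_assoc]
    have hne : σ.wL F (z * S.eqn c) ≠ 0 := fun h0 =>
      mul_ne_zero hf (mul_ne_zero S.mult_ne (DivSystem.wL_ne_zero _)) (by rw [he, h0, mul_zero])
    have h1 := congrArg e.ord he
    rw [e.ord_mul hf (mul_ne_zero S.mult_ne (DivSystem.wL_ne_zero _)), S.ord_wL c e hce.isNear,
      e.ord_mul hl' hne, Curve.ord_algebraMap, zero_add] at h1
    rw [hr] at hxe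
    have hx : x = 0 := Subtype.ext (hxe.eq_zero_iff.mpr (Curve.mem_ordGE_of_le (by omega)))
    rw [hx, map_zero] at hxc
    refine lt_of_lt_of_le one_pos (Curve.le_ord_of_mem (hxc.eq_zero_iff.mp rfl) ?_)
    rw [← σ.wK_cW, hr, map_mul]
    exact mul_ne_zero hz0 (DivSystem.wK_ne_zero _)

end Systems

end FermatLib.AV.Tors
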