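import Fermat.Agent.AV.Tors.Height.Model
import Fermat.Agent.AV.Tors.Geom.PointExt
import Fermat.Agent.AV.Tors.Geom.Tangent
import Fermat.Agent.AV.Tors.Curves.Genus
import Fermat.Agent.Curve.ConstExt.RRDescent

/-!
# Rigidity: the theorem of the square on a constant extension

For independent generic constants `η`, `η₂` the effective divisor in the class of the square plus
a divisor `P₀` of degree `g₀` with only constant functions has constant points, so equals `P₀`;
hence the square is principal there, and it specialises to every pair of constants.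
-/

set_option autoImplicit false
set_option linter.unusedSectionVars false

noncomputable section

universe u

open AlgebraicCurve IsLocalRing
open scoped TensorProduct

namespace FermatLib.AV.Tors

variable {K : Type u} [Field K] {g : ℕ} {A : AVData K g}

namespace AVData

variable (A) in
/-- The value homomorphism of a point on the local ring of its centre, over `K`. -/
def stalkAlgEval {R : Type u} [CommRing R] [Algebra K R] [IsLocalRing R] (p : A.Pt R) :
    A.X.presheaf.stalk (A.centre p) →ₐ[K] R :=
  { A.stalkEval p with commutes' := A.stalkEval_algebraMap p }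

theorem map_stalkAlgEval_taut {R : Type u} [CommRing R] [Algebra K R] [IsLocalRing R]
    (p : A.Pt R) : A.map (A.stalkAlgEval p) (A.taut (A.centre p)) = p := by
  have : IsLocalHom (A.stalkAlgEval p).toRingHom :=
    ⟨fun a ha => IsLocalHom.map_nonunit (f := A.stalkEval p) a ha⟩
  refine A.pt_ext (A.centre p) (specializes_of_eq ((A.centre_map _ _).trans (A.centre_taut _)))
    specializes_rfl ?_
  rintro _ ⟨s, rfl⟩
  rw [A.evalAt_map _ _ (by rw [centre_taut]; exact ⟨s, rfl⟩)]
  exact (congrArg (A.stalkAlgEval p) (A.evalAt_taut _ s)).trans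
    (A.evalAt_algebraMap_stalk p s).symm

theorem map_toAlgHom_taut (c : A.X) :
    A.map (IsScalarTower.toAlgHom K (A.X.presheaf.stalk c) A.FA) (A.taut c) = A.genPt := by
  refine A.pt_ext c ((A.centre_map_specializes _ _).trans (specializes_of_eq (A.centre_taut c)))
    ((specializes_of_eq A.centre_genPt).trans (genericPoint_specializes _)) ?_
  rintro _ ⟨s, rfl⟩
  rw [A.evalAt_map _ _ (by rw [centre_taut]; exact ⟨s, rfl⟩), evalAt_genPt]
  exact congrArg _ (A.evalAt_taut c s)

end AVData

theorem injective_tensorMap {P P' Q Q' : Type u} [CommRing P] [Algebra K P] [CommRing P']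
    [Algebra K P'] [CommRing Q] [Algebra K Q] [CommRing Q'] [Algebra K Q'] (a : P →ₐ[K] P')
    (b : Q →ₐ[K] Q') (ha : Function.Injective a) (hb : Function.Injective b) :
    Function.Injective (Algebra.TensorProduct.map a b) := by
  have h1 : Function.Injective (Algebra.TensorProduct.map a (AlgHom.id K Q)) :=
    Module.Flat.rTensor_preserves_injective_linearMap (M := Q) a.toLinearMap ha
  have h2 : Function.Injective (Algebra.TensorProduct.map (AlgHom.id K P') b) :=
    Module.Flat.lTensor_preserves_injective_linearMap (M := P') b.toLinearMap hb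
  rw [show Algebra.TensorProduct.map a b = (Algebra.TensorProduct.map (AlgHom.id K P') b).comp
    (Algebra.TensorProduct.map a (AlgHom.id K Q)) from
      Algebra.TensorProduct.ext' fun p q => by simp]
  exact h2.comp h1

variable [IsAlgClosed K] {F : Type u} [Field F] [Algebra K F] [Curve.IsFunctionField K F]

theorem finrank_divisorExt_eq_one {L : Type u} [Field L] [Algebra K L] [IsAlgClosed L]
    {N : Divisor K F} (h1 : Module.finrank K ↥(riemannRochSpace N) = 1) :
    Module.finrank L
      ↥(riemannRochSpace ((isConstantExtension_CF K L F).divisorExt N)) = 1 := by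
  rw [(isConstantExtension_CF K L F).finrank_riemannRochSpace_divisorExt, h1]

/-- The only effective divisor in the class of a rigid constant divisor is itself. -/
theorem ord_eq_zero_of_rigid {k : Type u} [Field k] [Algebra K k] [IsAlgClosed k]
    {N : Divisor K F} (hN : 0 ≤ N) (h1 : Module.finrank K ↥(riemannRochSpace N) = 1)
    {f : CF K k F}
    (h : ∀ c : Place k (CF K k F),
      0 ≤ c.ord f + (isConstantExtension_CF K k F).divisorExt N c)
    (c : Place k (CF K k F)) : c.ord f = 0 := by
  have hN' : 0 ≤ (isConstantExtension_CF K k F).divisorExt N := Finsupp.le_def.mpr fun c => by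
    by_cases hc : ∃ v, c = (isConstantExtension_CF K k F).placeExt v
    · obtain ⟨v, rfl⟩ := hc
      rw [Curve.IsConstantExtension.divisorExt_apply_placeExt]
      exact Finsupp.le_def.mp hN v
    · rw [(isConstantExtension_CF K k F).divisorExt_apply_eq_zero N (not_exists.mp hc)]
      rfl
  obtain ⟨a, rfl⟩ := eq_algebraMap_of_finrank_eq_one hN' (finrank_divisorExt_eq_one h1)
    (f := f) (Curve.mem_riemannRochSpace.mpr fun c => Curve.mem_ordGE_of_le (by linarith [h c]))
  exact Curve.ord_algebraMap c a

section system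

variable {L k : Type u} [Field L] [Algebra K L] [IsAlgClosed L] [Field k] [Algebra K k]
  [IsAlgClosed k] (σ : Spz K L k)

/-- The square at the constants `a`, `b`, with its specialisation. -/
def sqSystem (D : CartierDiv A) (P : A.Pt F) (a b : A.Pt L) : DivSystem σ F :=
  DivSystem.ofPoint σ D P (a + b) - DivSystem.ofPoint σ D P a - DivSystem.ofPoint σ D P b
    + DivSystem.ofPoint σ D P 0

theorem sqSystem_divL (D : CartierDiv A) (P : A.Pt F) (a b : A.Pt L) :
    (sqSystem σ D P a b).divL = pullDiv L D (cfPt A L P (a + b)) - pullDiv L D (cfPt A L P a)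
      - pullDiv L D (cfPt A L P b) + pullDiv L D (cfPt A L P 0) := by
  simp [sqSystem]

theorem sqSystem_divK (D : CartierDiv A) (P : A.Pt F) (a b : A.Pt L) :
    (sqSystem σ D P a b).divK =
      pullDiv k D (cfPt A k P (σ.spzPt a + σ.spzPt b)) - pullDiv k D (cfPt A k P (σ.spzPt a))
        - pullDiv k D (cfPt A k P (σ.spzPt b)) + pullDiv k D (cfPt A k P 0) := by
  simp [sqSystem, σ.spzPt_add, σ.spzPt_zero]

theorem sqSystem_divK_eq_zero (D : CartierDiv A) (P : A.Pt F) (a b : A.Pt L)
    (h : σ.spzPt a = 0 ∨ σ.spzPt b = 0) : (sqSystem σ D P a b).divK = 0 := by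
  rw [sqSystem_divK]
  rcases h with h | h <;> rw [h] <;> simp

theorem spzPt_of_spz {R : Type u} [CommRing R] [Algebra K R] {j : R →ₐ[K] L} {φ : R →ₐ[K] k}
    {ψ : R →ₐ[K] σ.VA} (hj : σ.VA.val.comp ψ = j) (hφ : σ.red.comp ψ = φ) (q : A.Pt R) :
    σ.spzPt (A.map j q) = A.map φ q := by
  rw [← hj, ← hφ, σ.spzPt_map]

end system

/-- The theorem of the square at independent generic constants. -/
theorem exists_principal_square_generic (D : CartierDiv A) (P : A.Pt F) {L₁ L : Type u}
    [Field L₁] [Algebra K L₁] [IsAlgClosed L₁] [Field L] [Algebra K L] [IsAlgClosed L]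
    (a : A.FA →ₐ[K] L₁) (τ : L₁ ⊗[K] A.FA →ₐ[K] L) (hτ : Function.Injective τ) :
    ∃ f : CF K L F, f ≠ 0 ∧ ∀ c : Place L (CF K L F),
      c.ord f +
        (pullDiv L D (cfPt A L P (A.map (τ.comp Algebra.TensorProduct.includeRight) A.genPt
            + A.map ((τ.comp Algebra.TensorProduct.includeLeft).comp a) A.genPt)) c
          - pullDiv L D (cfPt A L P
              (A.map (τ.comp Algebra.TensorProduct.includeRight) A.genPt)) c
          - pullDiv L D (cfPt A L P
              (A.map ((τ.comp Algebra.TensorProduct.includeLeft).comp a) A.genPt)) c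
          + pullDiv L D (cfPt A L P 0) c) = 0 := by
  classical
  set j₁ : L₁ →ₐ[K] L := τ.comp Algebra.TensorProduct.includeLeft
  set η : A.Pt L := A.map (τ.comp Algebra.TensorProduct.includeRight) A.genPt with hη
  set η₂ : A.Pt L := A.map (j₁.comp a) A.genPt with hη₂
  obtain ⟨x, hx, -⟩ := ‹Curve.IsFunctionField K F›.exists_transcendental
  obtain ⟨v₀, -⟩ := Curve.exists_ord_pos_of_transcendental hx
  obtain ⟨g₀, P₀, hP₀, hP₀v, hP₀d, hP₀l, hR⟩ := exists_riemann_divisor (F := F) v₀
  -- the local ring at the origin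
  let O := A.X.presheaf.stalk A.orig
  let ι : O →ₐ[K] A.FA := IsScalarTower.toAlgHom K O A.FA
  have hι : Function.Injective ι := IsFractionRing.injective O A.FA
  let ev₀ : O →ₐ[K] K := A.stalkAlgEval (0 : A.Pt K)
  have htaut0 : ∀ (k : Type u) [Field k] [Algebra K k],
      A.map ((Algebra.ofId K k).comp ev₀) (A.taut A.orig) = (0 : A.Pt k) := fun k _ _ => by
    rw [← A.map_map, A.map_stalkAlgEval_taut (0 : A.Pt K), map_zero]
  -- `η, η₂ ↦ 0`
  obtain ⟨σ₀, ψ₀, hψ₀j, hψ₀φ⟩ := exists_spz (τ.comp (Algebra.TensorProduct.map (a.comp ι) ι))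
    (hτ.comp (injective_tensorMap _ _ (a.injective.comp hι) hι))
    (Algebra.TensorProduct.lift ev₀ ev₀ fun _ _ => mul_comm _ _)
  have hη₀ : σ₀.spzPt η = 0 := by
    rw [hη, ← A.map_toAlgHom_taut A.orig, A.map_map,
      show ((τ.comp Algebra.TensorProduct.includeRight).comp
        (IsScalarTower.toAlgHom K (A.X.presheaf.stalk A.orig) A.FA)) =
          (τ.comp (Algebra.TensorProduct.map (a.comp ι) ι)).comp
            Algebra.TensorProduct.includeRight from AlgHom.ext fun s => by simp [ι, O],
      ← A.map_map, spzPt_of_spz σ₀ hψ₀j hψ₀φ, A.map_map,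
      show (Algebra.TensorProduct.lift ev₀ ev₀ fun _ _ => mul_comm _ _).comp
        Algebra.TensorProduct.includeRight = (Algebra.ofId K K).comp ev₀ from
          AlgHom.ext fun s => by simp, htaut0]
  set S₀ : DivSystem σ₀ F := sqSystem σ₀ D P η η₂ + DivSystem.const σ₀ P₀
  have hS₀K : S₀.divK = (isConstantExtension_CF K K F).divisorExt P₀ := by
    simp [S₀, sqSystem_divK_eq_zero σ₀ D P η η₂ (Or.inl hη₀)]
  have hdeg : Divisor.degree S₀.divL = g₀ := by
    rw [S₀.degree_divL_eq, hS₀K, Curve.IsConstantExtension.degree_divisorExt, hP₀d]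
  obtain ⟨f, hfm, hf⟩ := (Submodule.ne_bot_iff _).mp
    (show riemannRochSpace S₀.divL ≠ ⊥ from fun h => by
      have := hR L S₀.divL
      rw [hdeg, h, finrank_bot] at this
      omega)
  have heff : ∀ v : Place L (CF K L F), 0 ≤ v.ord f + S₀.divL v := fun v => by
    linarith [Curve.le_ord_of_mem (Curve.mem_riemannRochSpace.mp hfm v) hf]
  -- the effective divisor consists of constant places
  have hconst : ∀ e : Place L (CF K L F), 0 < e.ord f + S₀.divL e → underRing K L F e ≠ ⊤ := by
    intro e hpos htop
    obtain ⟨χ, hχ⟩ := exists_hom_of_underRing htop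
    by_cases hall : ∀ b, χ b ∈ j₁.range
    · -- fix `L₁`, send `η` to `0`
      obtain ⟨σ, ψ, hψj, hψφ⟩ := exists_spz (τ.comp (Algebra.TensorProduct.map (AlgHom.id K L₁) ι))
        (hτ.comp (injective_tensorMap _ _ Function.injective_id hι))
        (Algebra.TensorProduct.lift (AlgHom.id K L₁) ((Algebra.ofId K L₁).comp ev₀)
          fun _ _ => mul_comm _ _)
      have hσ : σ.spzPt η = 0 := by
        rw [hη, ← A.map_toAlgHom_taut A.orig, A.map_map,
          show ((τ.comp Algebra.TensorProduct.includeRight).comp
            (IsScalarTower.toAlgHom K (A.X.presheaf.stalk A.orig) A.FA)) =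
              (τ.comp (Algebra.TensorProduct.map (AlgHom.id K L₁) ι)).comp
                Algebra.TensorProduct.includeRight from AlgHom.ext fun s => by simp [ι, O],
          ← A.map_map, spzPt_of_spz σ hψj hψφ, A.map_map,
          show (Algebra.TensorProduct.lift (AlgHom.id K L₁) ((Algebra.ofId K L₁).comp ev₀)
            fun _ _ => mul_comm _ _).comp Algebra.TensorProduct.includeRight =
              (Algebra.ofId K L₁).comp ev₀ from AlgHom.ext fun s => by simp, htaut0]
      have hj₁V : ∀ l : L₁, j₁ l ∈ σ.V := fun l => by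
        have h1 : (ψ (l ⊗ₜ[K] 1) : L) = j₁ l := by
          refine (AlgHom.congr_fun hψj (l ⊗ₜ[K] 1)).trans ?_
          simp [j₁]
        exact h1 ▸ (ψ (l ⊗ₜ[K] 1)).2
      obtain ⟨c, hc, hce⟩ := σ.exists_specializes e χ hχ
      have hctop : underRing K L₁ F c = ⊤ := by
        rw [hc]
        refine eq_top_iff.mpr fun b _ => ?_
        obtain ⟨l, hl⟩ := hall b
        show χ b ∈ σ.V
        rw [show χ b = j₁ l from hl.symm]
        exact hj₁V l
      set S : DivSystem σ F := sqSystem σ D P η η₂ + DivSystem.const σ P₀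
      have hSK : S.divK = (isConstantExtension_CF K L₁ F).divisorExt P₀ := by
        simp [S, sqSystem_divK_eq_zero σ D P η η₂ (Or.inl hσ)]
      have hSL : S.divL = S₀.divL := by simp [S, S₀, sqSystem_divL]
      obtain ⟨gk, -, hgk, hgpos⟩ := S.exists_specialization_effective hf (hSL ▸ heff)
      have h3 := hgpos c e hce (hSL ▸ hpos)
      rw [hSK] at hgk h3
      rw [ord_eq_zero_of_rigid hP₀ hP₀l hgk c,
        divisorExt_eq_zero_of_underRing P₀ fun v _ h => v.ne_top' (h.symm.trans hctop)] at h3
      omega
    · -- send `η₂` to `0` and the transcendental point to `v₀`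
      have hinj := injective_lift_of_transcendental L j₁ χ hall
      let W := valAlg v₀.toValuationSubring (place_algebraMap_mem (K := K) v₀)
      let val : W →ₐ[K] K := valueHom v₀ (place_algebraMap_mem (K := K) v₀)
      obtain ⟨σ, ψ, hψj, hψφ⟩ := exists_spz
        ((Algebra.TensorProduct.lift j₁ χ fun _ _ => mul_comm _ _).comp
          (Algebra.TensorProduct.map (a.comp ι) W.val))
        (hinj.comp (injective_tensorMap _ _ (a.injective.comp hι) Subtype.val_injective))
        (Algebra.TensorProduct.lift ev₀ val fun _ _ => mul_comm _ _)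
      have hσ : σ.spzPt η₂ = 0 := by
        rw [hη₂, ← A.map_toAlgHom_taut A.orig, A.map_map,
          show ((j₁.comp a).comp (IsScalarTower.toAlgHom K (A.X.presheaf.stalk A.orig) A.FA)) =
            ((Algebra.TensorProduct.lift j₁ χ fun _ _ => mul_comm _ _).comp
              (Algebra.TensorProduct.map (a.comp ι) W.val)).comp
                Algebra.TensorProduct.includeLeft from AlgHom.ext fun s => by simp [ι, O],
          ← A.map_map, spzPt_of_spz σ hψj hψφ, A.map_map,
          show (Algebra.TensorProduct.lift ev₀ val fun _ _ => mul_comm _ _).comp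
            Algebra.TensorProduct.includeLeft = (Algebra.ofId K K).comp ev₀ from
              AlgHom.ext fun s => by simp, htaut0]
      obtain ⟨c, hc, hce⟩ := σ.exists_specializes e χ hχ
      have hval : ∀ b : W, ∃ hb : χ b ∈ σ.V, σ.red ⟨χ b, hb⟩ = val b := fun b => by
        have h1 : (ψ (1 ⊗ₜ[K] b) : L) = χ b := by
          refine (AlgHom.congr_fun hψj (1 ⊗ₜ[K] b)).trans ?_
          simp
        refine ⟨h1 ▸ (ψ (1 ⊗ₜ[K] b)).2, ?_⟩
        rw [show (⟨χ b, h1 ▸ (ψ (1 ⊗ₜ[K] b)).2⟩ : σ.VA) = ψ (1 ⊗ₜ[K] b) from
          Subtype.ext h1.symm]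
        refine (AlgHom.congr_fun hψφ (1 ⊗ₜ[K] b)).trans ?_
        simp
      obtain ⟨t, ht0, ht⟩ := Curve.exists_ord_eq_int v₀ 1
      have htW : t ∈ v₀.toValuationSubring :=
        (Curve.mem_valuationSubring_iff v₀).mpr (Curve.mem_ordGE_of_le (by omega))
      have hne : underRing K K F c ≠ ⊤ := by
        intro h
        obtain ⟨htV, htred⟩ := hval ⟨t, htW⟩
        have hval0 : val ⟨t, htW⟩ = 0 :=
          (isValue_valueHom v₀ (place_algebraMap_mem (K := K) v₀) ⟨t, htW⟩).eq_zero_iff.mpr
            (Curve.mem_ordGE_of_le ht.ge)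
        have htinv : (χ t)⁻¹ ∈ σ.V := by
          rw [← map_inv₀]
          show t⁻¹ ∈ σ.V.comap χ.toRingHom
          rw [← hc, h]
          exact ValuationSubring.mem_top _
        exact σ.red_inv htV htinv ((map_ne_zero χ).mpr ht0) (htred.trans hval0)
      obtain ⟨u, rfl⟩ := exists_place_underRing hne
      rw [underRing_placeExt] at hc
      have hu : v₀ = u := Place.eq_of_valuationSubring_le fun b hb => by
        rw [hc]
        exact (hval ⟨b, hb⟩).1
      subst hu
      set S : DivSystem σ F := sqSystem σ D P η η₂ + DivSystem.const σ P₀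
      have hSK : S.divK = (isConstantExtension_CF K K F).divisorExt P₀ := by
        simp [S, sqSystem_divK_eq_zero σ D P η η₂ (Or.inr hσ)]
      have hSL : S.divL = S₀.divL := by simp [S, S₀, sqSystem_divL]
      obtain ⟨gk, -, hgk, hgpos⟩ := S.exists_specialization_effective hf (hSL ▸ heff)
      have h3 := hgpos _ e hce (hSL ▸ hpos)
      rw [hSK] at hgk h3
      rw [ord_eq_zero_of_rigid hP₀ hP₀l hgk, Curve.IsConstantExtension.divisorExt_apply_placeExt,
        hP₀v] at h3
      omega
  -- so it is `P₀`
  set h := isConstantExtension_CF K L F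
  set E : Divisor L (CF K L F) := Curve.divOf f + S₀.divL
  have hEv : ∀ v, E v = v.ord f + S₀.divL v := fun v => rfl
  set N : Divisor K F := E.comapDomain h.placeExt h.placeExt_injective.injOn
  have hNE : ∀ v : Place L (CF K L F), h.divisorExt N v = E v := by
    intro v
    by_cases hv : ∃ u, v = h.placeExt u
    · obtain ⟨u, rfl⟩ := hv
      rw [Curve.IsConstantExtension.divisorExt_apply_placeExt]
      rfl
    · rw [h.divisorExt_apply_eq_zero N (not_exists.mp hv), hEv]
      refine le_antisymm (heff v) (le_of_not_gt fun hp => hv ?_)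
      exact exists_place_underRing (hconst v hp)
  obtain ⟨gk, hgk0, hgk⟩ := (S₀ - DivSystem.const σ₀ N).exists_divK_principal hf fun v => by
    rw [DivSystem.sub_divL, DivSystem.const_divL, Finsupp.sub_apply, hNE, hEv]
    ring
  simp only [DivSystem.sub_divK, DivSystem.const_divK, hS₀K, Finsupp.sub_apply] at hgk
  have hN0 : ∀ u, 0 ≤ N u := fun u => by
    have := heff (h.placeExt u)
    exact this
  have hext0 : ∀ c, 0 ≤ (isConstantExtension_CF K K F).divisorExt N c := fun c => by
    by_cases hc : ∃ u, c = (isConstantExtension_CF K K F).placeExt u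
    · obtain ⟨u, rfl⟩ := hc
      rw [Curve.IsConstantExtension.divisorExt_apply_placeExt]
      exact hN0 u
    · rw [(isConstantExtension_CF K K F).divisorExt_apply_eq_zero N (not_exists.mp hc)]
  have hNP : N = P₀ := (isConstantExtension_CF K K F).divisorExt_injective <| Finsupp.ext fun c => by
    have h1 := ord_eq_zero_of_rigid hP₀ hP₀l (f := gk)
      (fun c => by linarith [hgk c, hext0 c]) c
    linarith [hgk c]
  refine ⟨f, hf, fun c => ?_⟩
  have h2 := hNE c
  rw [hNP, hEv] at h2
  simp only [S₀, DivSystem.add_divL, DivSystem.const_divL, sqSystem_divL, Finsupp.add_apply,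
    Finsupp.sub_apply] at h2
  linarith

/-- For constant points `y`, `z` of a constant extension the pullbacks along `P + y + z`, `P + y`,
`P + z`, `P` satisfy the theorem of the square. -/
theorem exists_principal_square (D : CartierDiv A) (P : A.Pt F) (k : Type u) [Field k]
    [Algebra K k] [IsAlgClosed k] (y z : A.Pt k) :
    ∃ f : CF K k F, f ≠ 0 ∧ ∀ c : Place k (CF K k F),
      c.ord f + (pullDiv k D (cfPt A k P (y + z)) c - pullDiv k D (cfPt A k P y) c
        - pullDiv k D (cfPt A k P z) c + pullDiv k D (cfPt A k P 0) c) = 0 := by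
  let L₁ := AlgebraicClosure A.FA
  let M := CF K L₁ A.FA
  let L := AlgebraicClosure M
  let a : A.FA →ₐ[K] L₁ := IsScalarTower.toAlgHom K A.FA L₁
  let τ : L₁ ⊗[K] A.FA →ₐ[K] L :=
    (IsScalarTower.toAlgHom K M L).comp (IsScalarTower.toAlgHom K (L₁ ⊗[K] A.FA) M)
  have hτ : Function.Injective τ :=
    (algebraMap M L).injective.comp (IsFractionRing.injective (L₁ ⊗[K] A.FA) M)
  obtain ⟨f, hf, hord⟩ := exists_principal_square_generic D P a τ hτ
  let ιy := IsScalarTower.toAlgHom K (A.X.presheaf.stalk (A.centre y)) A.FA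
  let ιz := IsScalarTower.toAlgHom K (A.X.presheaf.stalk (A.centre z)) A.FA
  obtain ⟨σ, ψ, hψj, hψφ⟩ := exists_spz (τ.comp (Algebra.TensorProduct.map (a.comp ιz) ιy))
    (hτ.comp (injective_tensorMap _ _
      (a.injective.comp (IsFractionRing.injective (A.X.presheaf.stalk (A.centre z)) A.FA))
      (IsFractionRing.injective (A.X.presheaf.stalk (A.centre y)) A.FA)))
    (Algebra.TensorProduct.lift (A.stalkAlgEval z) (A.stalkAlgEval y) fun _ _ => mul_comm _ _)
  have hy : σ.spzPt (A.map (τ.comp Algebra.TensorProduct.includeRight) A.genPt) = y := by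
    rw [← A.map_toAlgHom_taut (A.centre y), A.map_map,
      show ((τ.comp Algebra.TensorProduct.includeRight).comp
        (IsScalarTower.toAlgHom K (A.X.presheaf.stalk (A.centre y)) A.FA)) =
          (τ.comp (Algebra.TensorProduct.map (a.comp ιz) ιy)).comp
            Algebra.TensorProduct.includeRight from AlgHom.ext fun s => by simp [ιy],
      ← A.map_map, spzPt_of_spz σ hψj hψφ, A.map_map,
      show (Algebra.TensorProduct.lift (A.stalkAlgEval z) (A.stalkAlgEval y)
        fun _ _ => mul_comm _ _).comp Algebra.TensorProduct.includeRight = A.stalkAlgEval y from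
          AlgHom.ext fun s => by simp, A.map_stalkAlgEval_taut]
  have hz : σ.spzPt (A.map ((τ.comp Algebra.TensorProduct.includeLeft).comp a) A.genPt) = z := by
    rw [← A.map_toAlgHom_taut (A.centre z), A.map_map,
      show (((τ.comp Algebra.TensorProduct.includeLeft).comp a).comp
        (IsScalarTower.toAlgHom K (A.X.presheaf.stalk (A.centre z)) A.FA)) =
          (τ.comp (Algebra.TensorProduct.map (a.comp ιz) ιy)).comp
            Algebra.TensorProduct.includeLeft from AlgHom.ext fun s => by simp [ιz],
      ← A.map_map, spzPt_of_spz σ hψj hψφ, A.map_map,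
      show (Algebra.TensorProduct.lift (A.stalkAlgEval z) (A.stalkAlgEval y)
        fun _ _ => mul_comm _ _).comp Algebra.TensorProduct.includeLeft = A.stalkAlgEval z from
          AlgHom.ext fun s => by simp, A.map_stalkAlgEval_taut]
  obtain ⟨gk, hgk0, hgk⟩ := (sqSystem σ D P
    (A.map (τ.comp Algebra.TensorProduct.includeRight) A.genPt)
    (A.map ((τ.comp Algebra.TensorProduct.includeLeft).comp a) A.genPt)).exists_divK_principal hf
      fun v => by
        rw [sqSystem_divL]
        simpa only [Finsupp.add_apply, Finsupp.sub_apply] using hord v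
  refine ⟨gk, hgk0, fun c => ?_⟩
  have := hgk c
  rwa [sqSystem_divK, hy, hz, Finsupp.add_apply, Finsupp.sub_apply, Finsupp.sub_apply] at this

end FermatLib.AV.Tors
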