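import Fermat.Agent.AV.Tors.Ext.Normal
import Fermat.Agent.AV.Tors.Curves.Genus

/-!
# Divisors on the integral model of a constant extension and their specialisation

A divisor system consists of a divisor on each fibre and local equations on the model near each
point of the special fibre. The space of functions of the special divisor is at least as large as
the one of the generic divisor, the degree is constant, and a principal divisor specialises to a
principal one.
-/

set_option autoImplicit false
set_option linter.unusedSectionVars false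

noncomputable section

universe u

open AlgebraicCurve IsLocalRing
open scoped TensorProduct

namespace FermatLib.AV.Tors

variable {K : Type u} [Field K] [IsAlgClosed K]

section LocAt

variable {T M P : Type u} [CommRing T] [Algebra K T] [Field M] [Algebra K M] [CommRing P]
  [Algebra K P] {φ : T →ₐ[K] M}

theorem locLift_injective (ψ : T →ₐ[K] P) (h : ∀ t, φ t ≠ 0 → IsUnit (ψ t))
    (hψ : Function.Injective ψ) : Function.Injective (locLift ψ h) := by
  intro x y hxy
  obtain ⟨⟨a, b⟩, hx⟩ := IsLocalization.surj (RingHom.ker φ.toRingHom).primeCompl x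
  obtain ⟨⟨a', b'⟩, hy⟩ := IsLocalization.surj (RingHom.ker φ.toRingHom).primeCompl y
  have h1 : locLift ψ h x * ψ b = ψ a := by
    rw [← locLift_algebraMap ψ h b, ← locLift_algebraMap ψ h a, ← map_mul, hx]
  have h2 : locLift ψ h y * ψ b' = ψ a' := by
    rw [← locLift_algebraMap ψ h b', ← locLift_algebraMap ψ h a', ← map_mul, hy]
  have he : a * b' = a' * b := hψ (by rw [map_mul, map_mul, ← h1, ← h2, hxy]; ring)
  refine ((IsLocalization.map_units (LocAt φ) b).mul (IsLocalization.map_units (LocAt φ) b')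
    ).mul_left_inj.mp ?_
  rw [← mul_assoc, hx, mul_left_comm, hy, ← map_mul, ← map_mul, he, mul_comm]

end LocAt

variable {L k : Type u} [Field L] [Algebra K L] [Field k] [Algebra K k]
  {F : Type u} [Field F] [Algebra K F] [Curve.IsFunctionField K F]

/-- The valuation ring of `F` under a place of the special fibre, as a `K`-algebra. -/
abbrev placeBase (c : Place k (CF K k F)) : Subalgebra K F :=
  valAlg (underRing K k F c) (algebraMap_mem_underRing K k F c)

theorem iF_mem_of_placeBase (c : Place k (CF K k F)) (b : placeBase c) :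
    iF K k F b ∈ c.toValuationSubring := b.2

theorem Place.eq_of_valuationSubring_le {v w : Place K F}
    (h : v.toValuationSubring ≤ w.toValuationSubring) : v = w := by
  refine AlgebraicCurve.Place.ext (le_antisymm h fun x hx => ?_)
  by_contra hxv
  refine w.ne_top' (SetLike.ext fun f => ⟨fun _ => ValuationSubring.mem_top f, fun _ => ?_⟩)
  have hneg : v.ord x < 0 := (Curve.notMem_iff_ord_neg v).mp hxv
  have hx0 : x ≠ 0 := fun e => by simp [e] at hneg
  rcases eq_or_ne f 0 with rfl | hf
  · exact zero_mem _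
  let m : ℕ := (-v.ord f).toNat
  have hm : f / x ^ m ∈ w.toValuationSubring := h ((Curve.mem_iff_ord_nonneg v
    (div_ne_zero hf (pow_ne_zero _ hx0))).mpr (by
      rw [Curve.ord_div v hf (pow_ne_zero _ hx0), Curve.ord_pow]
      have h1 : (m : ℤ) * v.ord x ≤ (m : ℤ) * (-1) :=
        mul_le_mul_of_nonneg_left (by omega) (Nat.cast_nonneg m)
      have h2 : -v.ord f ≤ (m : ℤ) := Int.self_le_toNat _
      omega))
  rw [show f = f / x ^ m * x ^ m from (div_mul_cancel₀ f (pow_ne_zero _ hx0)).symm]
  exact mul_mem hm (pow_mem hx m)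

namespace Spz

variable (σ : Spz K L k)

/-- The functions of `F` in the local ring of the special fibre. -/
def iFw (F : Type u) [Field F] [Algebra K F] : F →ₐ[K] σ.Rw F :=
  (IsScalarTower.toAlgHom K (σ.VA ⊗[K] F) (σ.Rw F)).comp Algebra.TensorProduct.includeRight

theorem wL_iFw (f : F) : σ.wL F (σ.iFw F f) = iF K L F f := by
  show σ.wL F (algebraMap _ (σ.Rw F) ((1 : σ.VA) ⊗ₜ[K] f)) = _
  rw [σ.wL_algebraMap, iF_apply]
  show algebraMap (L ⊗[K] F) (CF K L F) (σ.incl F _) = _
  rw [incl, Algebra.TensorProduct.map_tmul]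
  simp

theorem wK_iFw (f : F) : σ.wK F (σ.iFw F f) = iF K k F f := by
  show σ.wK F (algebraMap _ (σ.Rw F) ((1 : σ.VA) ⊗ₜ[K] f)) = _
  rw [σ.wK_algebraMap, iF_apply]
  show algebraMap (k ⊗[K] F) (CF K k F) (σ.redT F _) = _
  rw [redT, Algebra.TensorProduct.map_tmul]
  simp

theorem cW_injective (B : Subalgebra K F) (c : Place k (CF K k F))
    (hB : ∀ b : B, iF K k F b ∈ c.toValuationSubring) :
    Function.Injective (σ.cW B c hB) := by
  have h : Function.Injective ((σ.wL F).comp (σ.cW B c hB)) := by
    have he : (σ.wL F).comp (σ.cW B c hB) =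
        locLift ((σ.toL F).comp (σ.inclB B)) fun t ht =>
          (σ.toL_ne_zero_of_toK F (σ.toK_ne_zero_of_resC B c hB ht)).isUnit :=
      locLift_comp _ _ fun t => by
        refine (σ.wL_cW_algebraMap B c hB t).trans ?_
        exact (locLift_algebraMap ((σ.toL F).comp (σ.inclB B)) _ t).symm
    rw [he]
    exact locLift_injective _ _ ((σ.toL_injective F).comp
      (Module.Flat.lTensor_preserves_injective_linearMap (M := σ.VA) B.val.toLinearMap
        Subtype.val_injective))
  intro x y e
  exact h (congrArg (σ.wL F) e)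

variable (c : Place k (CF K k F))

/-- The valuation rings of the generic fibre near a point of the special fibre. -/
def IsNear (W : ValuationSubring (CF K L F)) : Prop :=
  (∀ y ∈ imgB (L := L) (placeBase c), y ∈ W) ∧
    ∀ b, σ.resC (placeBase c) c (iF_mem_of_placeBase c) b ≠ 0 →
      (σ.toL F (σ.inclB (placeBase c) b))⁻¹ ∈ W

variable {σ c}

theorem IsNear.iF_mem {W : ValuationSubring (CF K L F)} (h : σ.IsNear c W) (b : placeBase c) :
    iF K L F b ∈ W := by
  refine h.1 _ ⟨(1 : L) ⊗ₜ[K] b, ?_⟩
  show algebraMap (L ⊗[K] F) (CF K L F)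
    (Algebra.TensorProduct.map (AlgHom.id K L) (placeBase c).val ((1 : L) ⊗ₜ[K] b)) = _
  rw [Algebra.TensorProduct.map_tmul, iF_apply]
  rfl

theorem IsNear.algebraMap_mem {W : ValuationSubring (CF K L F)} (h : σ.IsNear c W) (l : L) :
    algebraMap L (CF K L F) l ∈ W := by
  refine h.1 _ ⟨l ⊗ₜ[K] 1, ?_⟩
  show algebraMap (L ⊗[K] F) (CF K L F)
    (Algebra.TensorProduct.map (AlgHom.id K L) (placeBase c).val (l ⊗ₜ[K] 1)) = _
  rw [Algebra.TensorProduct.map_tmul, algebraMap_tmul]
  simp

theorem IsNear.underRing_le {v : Place L (CF K L F)} (h : σ.IsNear c v.toValuationSubring) :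
    underRing K k F c ≤ underRing K L F v := fun b hb => h.iF_mem ⟨b, hb⟩

variable (σ c) [IsAlgClosed L]

/-- An element which is regular at all near places comes from the local ring at `c`. -/
theorem exists_cW_of_near (z : σ.Rw F)
    (hz : ∀ v : Place L (CF K L F), σ.IsNear c v.toValuationSubring →
      σ.wL F z ∈ v.toValuationSubring) :
    ∃ r, σ.cW (placeBase c) c (iF_mem_of_placeBase c) r = z := by
  refine σ.exists_cW_eq _ c _ (normalB_valAlg L _ _) z fun W h1 h2 => ?_
  by_cases hW : W = ⊤
  · rw [hW]; exact ValuationSubring.mem_top _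
  exact hz (Curve.placeOfValuationSubring W (IsNear.algebraMap_mem (σ := σ) ⟨h1, h2⟩) hW)
    ⟨h1, h2⟩

end Spz

open Spz

/-- Divisors on the two fibres with common equations near every point of the special fibre. -/
structure DivSystem (σ : Spz K L k) (F : Type u) [Field F] [Algebra K F]
    [Curve.IsFunctionField K F] where
  divL : Divisor L (CF K L F)
  divK : Divisor k (CF K k F)
  mult : CF K L F
  mult_ne : mult ≠ 0
  eqn : Place k (CF K k F) → (σ.Rw F)ˣ
  ord_wK : ∀ c, c.ord (σ.wK F (eqn c)) = divK c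
  ord_wL : ∀ c (v : Place L (CF K L F)), σ.IsNear c v.toValuationSubring →
    v.ord (mult * σ.wL F (eqn c)) = divL v

namespace DivSystem

variable {σ : Spz K L k}

theorem wL_ne_zero (e : (σ.Rw F)ˣ) : σ.wL F e ≠ 0 := (e.isUnit.map (σ.wL F)).ne_zero

theorem wK_ne_zero (e : (σ.Rw F)ˣ) : σ.wK F e ≠ 0 := (e.isUnit.map (σ.wK F)).ne_zero

instance : Zero (DivSystem σ F) where
  zero :=
    { divL := 0
      divK := 0
      mult := 1
      mult_ne := one_ne_zero
      eqn := fun _ => 1
      ord_wK := fun c => by simp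
      ord_wL := fun c v _ => by simp }

instance : Add (DivSystem σ F) where
  add S T :=
    { divL := S.divL + T.divL
      divK := S.divK + T.divK
      mult := S.mult * T.mult
      mult_ne := mul_ne_zero S.mult_ne T.mult_ne
      eqn := fun c => S.eqn c * T.eqn c
      ord_wK := fun c => by
        rw [Units.val_mul, map_mul, c.ord_mul (wK_ne_zero _) (wK_ne_zero _), S.ord_wK, T.ord_wK,
          Finsupp.add_apply]
      ord_wL := fun c v hv => by
        rw [Units.val_mul, map_mul, mul_mul_mul_comm,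
          v.ord_mul (mul_ne_zero S.mult_ne (wL_ne_zero _)) (mul_ne_zero T.mult_ne (wL_ne_zero _)),
          S.ord_wL c v hv, T.ord_wL c v hv, Finsupp.add_apply] }

instance : Neg (DivSystem σ F) where
  neg S :=
    { divL := -S.divL
      divK := -S.divK
      mult := S.mult⁻¹
      mult_ne := inv_ne_zero S.mult_ne
      eqn := fun c => (S.eqn c)⁻¹
      ord_wK := fun c => by
        rw [map_units_inv, c.ord_inv, S.ord_wK, Finsupp.neg_apply]
      ord_wL := fun c v hv => by
        rw [map_units_inv, ← mul_inv, v.ord_inv, S.ord_wL c v hv, Finsupp.neg_apply] }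

instance : Sub (DivSystem σ F) := ⟨fun S T => S + -T⟩

@[simp] theorem zero_divL : (0 : DivSystem σ F).divL = 0 := rfl
@[simp] theorem zero_divK : (0 : DivSystem σ F).divK = 0 := rfl
@[simp] theorem add_divL (S T : DivSystem σ F) : (S + T).divL = S.divL + T.divL := rfl
@[simp] theorem add_divK (S T : DivSystem σ F) : (S + T).divK = S.divK + T.divK := rfl
@[simp] theorem neg_divL (S : DivSystem σ F) : (-S).divL = -S.divL := rfl
@[simp] theorem neg_divK (S : DivSystem σ F) : (-S).divK = -S.divK := rfl
@[simp] theorem sub_divL (S T : DivSystem σ F) : (S - T).divL = S.divL - T.divL :=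
  (sub_eq_add_neg _ _).symm
@[simp] theorem sub_divK (S T : DivSystem σ F) : (S - T).divK = S.divK - T.divK :=
  (sub_eq_add_neg _ _).symm

/-- Multiples of a system. -/
def smulNat : ℕ → DivSystem σ F → DivSystem σ F
  | 0, _ => 0
  | n + 1, S => smulNat n S + S

@[simp] theorem smulNat_divL (n : ℕ) (S : DivSystem σ F) :
    (smulNat n S).divL = n • S.divL := by
  induction n with
  | zero => simp [smulNat]
  | succ n ih => simp [smulNat, ih, succ_nsmul]

@[simp] theorem smulNat_divK (n : ℕ) (S : DivSystem σ F) :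
    (smulNat n S).divK = n • S.divK := by
  induction n with
  | zero => simp [smulNat]
  | succ n ih => simp [smulNat, ih, succ_nsmul]

variable [IsAlgClosed k] [IsAlgClosed L]

theorem exists_const_equation (N : Divisor K F) (c : Place k (CF K k F)) :
    ∃ t : Fˣ, c.ord (iF K k F t) = (isConstantExtension_CF K k F).divisorExt N c ∧
      ∀ v : Place L (CF K L F), σ.IsNear c v.toValuationSubring →
        v.ord (iF K L F t) = (isConstantExtension_CF K L F).divisorExt N v := by
  by_cases hc : underRing K k F c = ⊤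
  · refine ⟨1, ?_, fun v hv => ?_⟩
    · rw [ord_iF_eq_zero_of_underRing hc, divisorExt_eq_zero_of_underRing]
      exact fun v _ h => v.ne_top' (h.symm.trans hc)
    · have hv' : underRing K L F v = ⊤ := top_le_iff.mp (hc ▸ hv.underRing_le)
      rw [ord_iF_eq_zero_of_underRing hv', divisorExt_eq_zero_of_underRing]
      exact fun w _ h => w.ne_top' (h.symm.trans hv')
  · obtain ⟨u, rfl⟩ := exists_place_underRing hc
    refine ⟨Units.mk0 (Curve.unif u) (Curve.unif_ne_zero u) ^ N u, ?_, fun v hv => ?_⟩
    · rw [Units.val_zpow_eq_zpow_val, Units.val_mk0, Curve.IsConstantExtension.divisorExt_apply_placeExt]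
      exact ((isConstantExtension_CF K k F).ord_placeExt u _).trans (Curve.ord_unif_zpow u _)
    · by_cases hv' : underRing K L F v = ⊤
      · rw [ord_iF_eq_zero_of_underRing hv', divisorExt_eq_zero_of_underRing]
        exact fun w _ h => w.ne_top' (h.symm.trans hv')
      · obtain ⟨u', rfl⟩ := exists_place_underRing hv'
        have hle := hv.underRing_le
        rw [underRing_placeExt, underRing_placeExt] at hle
        rw [← Place.eq_of_valuationSubring_le hle, Units.val_zpow_eq_zpow_val, Units.val_mk0,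
          Curve.IsConstantExtension.divisorExt_apply_placeExt]
        exact ((isConstantExtension_CF K L F).ord_placeExt u _).trans (Curve.ord_unif_zpow u _)

variable (σ) in
/-- The system of a divisor of `F`. -/
def const (N : Divisor K F) : DivSystem σ F where
  divL := (isConstantExtension_CF K L F).divisorExt N
  divK := (isConstantExtension_CF K k F).divisorExt N
  mult := 1
  mult_ne := one_ne_zero
  eqn c := Units.map (σ.iFw F).toRingHom.toMonoidHom (exists_const_equation (σ := σ) N c).choose
  ord_wK c := by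
    show c.ord (σ.wK F (σ.iFw F _)) = _
    rw [σ.wK_iFw]
    exact (exists_const_equation (σ := σ) N c).choose_spec.1
  ord_wL c v hv := by
    show v.ord (1 * σ.wL F (σ.iFw F _)) = _
    rw [one_mul, σ.wL_iFw]
    exact (exists_const_equation (σ := σ) N c).choose_spec.2 v hv

@[simp] theorem const_divL (N : Divisor K F) :
    (const σ N).divL = (isConstantExtension_CF K L F).divisorExt N := rfl
@[simp] theorem const_divK (N : Divisor K F) :
    (const σ N).divK = (isConstantExtension_CF K k F).divisorExt N := rfl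

variable (S : DivSystem σ F)

/-- A function bounded by the generic divisor is, after scaling, regular on the model. -/
theorem exists_cW {f : CF K L F} (hf : f ≠ 0) {l : L} (hl : l ≠ 0) {z : σ.Rw F}
    (hz : f * S.mult = algebraMap L _ l * σ.wL F z) {c : Place k (CF K k F)}
    (h : ∀ v : Place L (CF K L F), σ.IsNear c v.toValuationSubring → 0 ≤ v.ord f + S.divL v) :
    ∃ r, σ.cW (placeBase c) c (iF_mem_of_placeBase c) r = z * S.eqn c := by
  refine σ.exists_cW_of_near c _ fun v hv => ?_
  have hl' : algebraMap L (CF K L F) l ≠ 0 := (map_ne_zero _).mpr hl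
  have e : f * (S.mult * σ.wL F (S.eqn c)) = algebraMap L _ l * σ.wL F (z * S.eqn c) := by
    rw [map_mul, ← mul_assoc, hz, mul_assoc]
  have hne : σ.wL F (z * S.eqn c) ≠ 0 := fun h0 =>
    mul_ne_zero hf (mul_ne_zero S.mult_ne (wL_ne_zero _)) (by rw [e, h0, mul_zero])
  refine (Curve.mem_iff_ord_nonneg v hne).mpr ?_
  have h1 := congrArg v.ord e
  rw [v.ord_mul hf (mul_ne_zero S.mult_ne (wL_ne_zero _)), S.ord_wL c v hv, v.ord_mul hl' hne,
    Curve.ord_algebraMap, zero_add] at h1
  exact h1 ▸ h v hv

/-- If the bound is an equality near `c` the scaled function is a unit there. -/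
theorem exists_cW_unit {f : CF K L F} (hf : f ≠ 0) {l : L} (hl : l ≠ 0) {z : σ.Rw F}
    (hz0 : σ.wK F z ≠ 0) (hz : f * S.mult = algebraMap L _ l * σ.wL F z)
    {c : Place k (CF K k F)}
    (h : ∀ v : Place L (CF K L F), σ.IsNear c v.toValuationSubring → v.ord f + S.divL v = 0) :
    ∃ r, IsUnit r ∧ σ.cW (placeBase c) c (iF_mem_of_placeBase c) r = z * S.eqn c := by
  obtain ⟨r, hr⟩ := S.exists_cW hf hl hz fun v hv => (h v hv).ge
  let u : (σ.Rw F)ˣ := (isUnit_of_locRes_ne_zero hz0).unit
  have hz' : f⁻¹ * (-S).mult =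
      algebraMap L _ l⁻¹ * σ.wL F ((u⁻¹ : (σ.Rw F)ˣ) : σ.Rw F) := by
    show f⁻¹ * S.mult⁻¹ = _
    rw [map_units_inv, map_inv₀, ← mul_inv, ← mul_inv, hz]
    rfl
  obtain ⟨r', hr'⟩ := (-S).exists_cW (inv_ne_zero hf) (inv_ne_zero hl) hz' fun v hv => by
    rw [v.ord_inv, neg_divL, Finsupp.neg_apply]
    linarith [h v hv]
  refine ⟨r, .of_mul_eq_one r' (σ.cW_injective _ _ _ ?_), hr⟩
  rw [map_mul, map_one, hr, hr', mul_mul_mul_comm,
    show z * ((u⁻¹ : (σ.Rw F)ˣ) : σ.Rw F) = 1 from u.mul_inv, one_mul]
  exact (S.eqn c).mul_inv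

/-- The reduction is bounded by the special divisor. -/
theorem nonneg_of_cW {z : σ.Rw F} (hz0 : σ.wK F z ≠ 0) {c : Place k (CF K k F)}
    {r : σ.Rc (placeBase c) c (iF_mem_of_placeBase c)}
    (hr : σ.cW (placeBase c) c (iF_mem_of_placeBase c) r = z * S.eqn c) :
    0 ≤ c.ord (σ.wK F z) + S.divK c ∧
      c.ord (σ.cC (placeBase c) c (iF_mem_of_placeBase c) r : CF K k F) =
        c.ord (σ.wK F z) + S.divK c := by
  have h := σ.wK_cW (placeBase c) c (iF_mem_of_placeBase c) r
  rw [hr, map_mul] at h
  rw [← S.ord_wK c, ← c.ord_mul hz0 (wK_ne_zero _), h]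
  exact ⟨Curve.ord_nonneg_of_mem_place c (σ.cC _ c _ r).2, rfl⟩

theorem wK_mem_riemannRochSpace {f : CF K L F} (hf : f ≠ 0)
    (hfm : f ∈ riemannRochSpace S.divL) {l : L} (hl : l ≠ 0) {z : σ.Rw F}
    (hz : f * S.mult = algebraMap L _ l * σ.wL F z) :
    σ.wK F z ∈ riemannRochSpace S.divK := by
  rw [Curve.mem_riemannRochSpace] at hfm ⊢
  intro c
  by_cases hz0 : σ.wK F z = 0
  · rw [hz0]; exact zero_mem _
  obtain ⟨r, hr⟩ := S.exists_cW hf hl hz (c := c) fun v _ => by
    linarith [Curve.le_ord_of_mem (hfm v) hf]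
  exact Curve.mem_ordGE_of_le (by linarith [(S.nonneg_of_cW hz0 hr).1])

/-- A principal generic divisor specialises to a principal divisor. -/
theorem exists_divK_principal {f : CF K L F} (hf : f ≠ 0)
    (h : ∀ v : Place L (CF K L F), v.ord f + S.divL v = 0) :
    ∃ g : CF K k F, g ≠ 0 ∧ ∀ c : Place k (CF K k F), c.ord g + S.divK c = 0 := by
  obtain ⟨l, z, hl, hz0, hz⟩ := σ.exists_scale F (mul_ne_zero hf S.mult_ne)
  refine ⟨_, hz0, fun c => ?_⟩
  obtain ⟨r, hru, hr⟩ := S.exists_cW_unit hf hl hz0 hz (c := c) fun v _ => h v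
  rw [← (S.nonneg_of_cW hz0 hr).2]
  exact Curve.ord_eq_zero_of_isUnit c
    (u := ⟨(σ.cC (placeBase c) c (iF_mem_of_placeBase c) r : CF K k F), (σ.cC _ c _ r).2⟩)
    (hru.map (σ.cC (placeBase c) c (iF_mem_of_placeBase c)))

theorem linearIndependent_toK_mul {ι : Type*} {b : ι → σ.VA ⊗[K] F}
    (hind : LinearIndependent k fun i => σ.redT F (b i)) {s : CF K k F} (hs : s ≠ 0) :
    LinearIndependent k fun i => σ.toK F (b i) * s := by
  let f : k ⊗[K] F →ₗ[k] CF K k F :=
    (LinearMap.mulRight k s).comp
      (IsScalarTower.toAlgHom k (k ⊗[K] F) (CF K k F)).toLinearMap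
  have hf : Function.Injective f :=
    (mul_left_injective₀ hs).comp (IsFractionRing.injective (k ⊗[K] F) (CF K k F))
  have e : (fun i => σ.toK F (b i) * s) = f ∘ fun i => σ.redT F (b i) := funext fun i => rfl
  rw [e]
  exact hind.map' f (LinearMap.ker_eq_bot.mpr hf)

/-- Scaling within a space of functions on the generic fibre. -/
theorem exists_reduced_family (W : Submodule L (CF K L F)) [FiniteDimensional L W] {μ : CF K L F}
    (hμ : μ ≠ 0) :
    ∃ z : Fin (Module.finrank L W) → σ.Rw F, (LinearIndependent k fun i => σ.wK F (z i)) ∧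
      ∀ i, σ.wL F (z i) * μ⁻¹ ∈ W := by
  classical
  let β := Module.finBasis L W
  obtain ⟨⟨s, hs⟩, hint⟩ := IsLocalization.exist_integer_multiples_of_finite
    (nonZeroDivisors (L ⊗[K] F)) (fun i => (β i : CF K L F) * μ)
  choose a ha using hint
  obtain ⟨ls, s', hls, hs', rfl⟩ := σ.exists_content F (nonZeroDivisors.ne_zero hs)
  have hs'K : σ.toK F s' ≠ 0 := (σ.toK_ne_zero_iff F).mpr hs'
  have hs'L : σ.toL F s' ≠ 0 := σ.toL_ne_zero_of_toK F hs'K
  let φ : L ⊗[K] F →ₗ[L] CF K L F :=
    (LinearMap.mulRight L ((σ.toL F s')⁻¹ * μ⁻¹)).comp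
      (IsScalarTower.toAlgHom L (L ⊗[K] F) (CF K L F)).toLinearMap
  have hφ : Function.Injective φ :=
    (mul_left_injective₀ (mul_ne_zero (inv_ne_zero hs'L) (inv_ne_zero hμ))).comp
      (IsFractionRing.injective (L ⊗[K] F) (CF K L F))
  have hsmul : algebraMap (L ⊗[K] F) (CF K L F) (ls • σ.incl F s') =
      algebraMap L _ ls * σ.toL F s' := by
    rw [Algebra.smul_def, map_mul, ← IsScalarTower.algebraMap_apply]
    rfl
  have hmem : ∀ i, (β i : CF K L F) ∈ LinearMap.range φ := fun i => by
    refine ⟨ls⁻¹ • a i, ?_⟩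
    rw [map_smul]
    show ls⁻¹ • (algebraMap (L ⊗[K] F) (CF K L F) (a i) * _) = _
    rw [ha i, Algebra.smul_def, Algebra.smul_def, hsmul, map_inv₀]
    have hl := (map_ne_zero (algebraMap L (CF K L F))).mpr hls
    field_simp
  have hrange : W ≤ LinearMap.range φ := fun x hx => by
    have h1 := β.sum_repr ⟨x, hx⟩
    have h2 : ∑ i, β.repr ⟨x, hx⟩ i • (β i : CF K L F) = x := by
      have h3 := congrArg W.subtype h1
      rw [map_sum] at h3
      exact h3
    rw [← h2]
    exact Submodule.sum_mem _ fun i _ => Submodule.smul_mem _ _ (hmem i)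
  let W' := W.comap φ
  let e : W' ≃ₗ[L] W := (Submodule.equivMapOfInjective φ hφ W').trans
    (LinearEquiv.ofEq _ _ (Submodule.map_comap_eq_self hrange))
  have : FiniteDimensional L W' := e.symm.finiteDimensional
  obtain ⟨b, hb, hind⟩ := σ.exists_reduced_basis F (Module.finrank L W) W' this e.finrank_eq
  let su : (σ.Rw F)ˣ := (IsLocalization.map_units (σ.Rw F)
    (⟨s', fun h => hs'K h⟩ : (RingHom.ker (σ.toK F).toRingHom).primeCompl)).unit
  refine ⟨fun i => algebraMap _ (σ.Rw F) (b i) * ((su⁻¹ : (σ.Rw F)ˣ) : σ.Rw F), ?_, fun i => ?_⟩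
  · have hzK : (fun i => σ.wK F (algebraMap _ (σ.Rw F) (b i) * ((su⁻¹ : (σ.Rw F)ˣ) : σ.Rw F))) =
        fun i => σ.toK F (b i) * (σ.toK F s')⁻¹ := funext fun i => by
      rw [map_mul, map_units_inv, σ.wK_algebraMap,
        show σ.wK F su = σ.toK F s' from σ.wK_algebraMap F s']
    rw [hzK]
    exact linearIndependent_toK_mul hind (inv_ne_zero hs'K)
  · have h1 : φ (σ.incl F (b i)) ∈ W := hb i
    rw [map_mul, map_units_inv, σ.wL_algebraMap,
      show σ.wL F su = σ.toL F s' from σ.wL_algebraMap F s', mul_assoc]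
    exact h1

/-- Semicontinuity: the special fibre has at least as many functions. -/
theorem finrank_le :
    Module.finrank L ↥(riemannRochSpace S.divL) ≤
      Module.finrank k ↥(riemannRochSpace S.divK) := by
  obtain ⟨z, hli, hW⟩ := exists_reduced_family (σ := σ) (riemannRochSpace S.divL) S.mult_ne
  have hmem : ∀ i, σ.wK F (z i) ∈ riemannRochSpace S.divK := fun i => by
    have hz0 : σ.wL F (z i) ≠ 0 := fun h0 => hli.ne_zero i (by
      rw [(map_eq_zero_iff (σ.wL F) (σ.wL_injective F)).mp h0, map_zero])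
    refine S.wK_mem_riemannRochSpace (mul_ne_zero hz0 (inv_ne_zero S.mult_ne)) (hW i) one_ne_zero ?_
    rw [map_one, one_mul, inv_mul_cancel_right₀ S.mult_ne]
  have hli' : LinearIndependent k fun i => (⟨_, hmem i⟩ : riemannRochSpace S.divK) :=
    LinearIndependent.of_comp (riemannRochSpace S.divK).subtype hli
  simpa using hli'.fintype_card_le_finrank

/-- The degree of a system is constant. -/
theorem degree_divL_eq : Divisor.degree S.divL = Divisor.degree S.divK := by
  obtain ⟨x, hx, -⟩ := ‹Curve.IsFunctionField K F›.exists_transcendental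
  obtain ⟨u₀, -⟩ := Curve.exists_ord_pos_of_transcendental hx
  suffices key : ∀ T : DivSystem σ F, Divisor.degree T.divL ≤ Divisor.degree T.divK by
    refine le_antisymm (key S) ?_
    have := key (-S)
    simpa using this
  intro T
  obtain ⟨C, hC⟩ := Curve.exists_bound_degree_sub_finrank (K := L) (F := CF K L F)
  by_contra hlt
  push Not at hlt
  set d := Divisor.degree T.divL
  set e := Divisor.degree T.divK
  let m : ℕ := (C + 2).toNat
  let n : ℕ := ((m : ℤ) * (-e)).toNat
  let U := smulNat m T + const σ (Finsupp.single u₀ (n : ℤ))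
  have hn : Divisor.degree (Finsupp.single u₀ (n : ℤ) : Divisor K F) = n := by
    rw [Divisor.degree_single, Curve.deg_eq_one, Nat.cast_one, mul_one]
  have hL : Divisor.degree U.divL = (m : ℤ) * d + n := by
    rw [add_divL, smulNat_divL, const_divL, map_add, map_nsmul,
      Curve.IsConstantExtension.degree_divisorExt, hn, nsmul_eq_mul]
  have hK : Divisor.degree U.divK = (m : ℤ) * e + n := by
    rw [add_divK, smulNat_divK, const_divK, map_add, map_nsmul,
      Curve.IsConstantExtension.degree_divisorExt, hn, nsmul_eq_mul]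
  have hn0 : (m : ℤ) * (-e) ≤ n := Int.self_le_toNat _
  have h1 := hC U.divL
  have h2 : (Module.finrank k ↥(riemannRochSpace U.divK) : ℤ) ≤ Divisor.degree U.divK + 1 :=
    finrank_riemannRochSpace_le_degree_add_one U.divK (by rw [hK, mul_neg] at *; omega)
  have h3 : (Module.finrank L ↥(riemannRochSpace U.divL) : ℤ) ≤
      Module.finrank k ↥(riemannRochSpace U.divK) := Int.ofNat_le.mpr U.finrank_le
  have h4 : (m : ℤ) * 1 ≤ (m : ℤ) * (d - e) :=
    mul_le_mul_of_nonneg_left (by omega) (Nat.cast_nonneg m)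
  have h5 : C + 2 ≤ (m : ℤ) := Int.self_le_toNat _
  rw [hL] at h1
  rw [hK] at h2
  rw [mul_sub] at h4
  linarith

end DivSystem

end FermatLib.AV.Tors
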